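import Fermat.Agent.PT.Defs
import Fermat.Agent.SS2.Unramified
import Fermat.Agent.Chebotarev.FrobConj
import Fermat.Agent.Alg.Frobenius

/-!
Parcel B: the place fixed at each rational prime, Frobenius elements there and the primes ramified
in a number field.
-/

set_option autoImplicit false
set_option linter.style.haveILetI false

noncomputable section

open scoped Pointwise NumberField
open FLTAgent.Common

namespace FLTAgent.PT

theorem lies_place (q : Nat.Primes) :
    (ExtCitation.primeLocalPlace q).LiesOverPrime (q : ℕ) := by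
  haveI : Fact (q : ℕ).Prime := ⟨q.2⟩
  show ((q : ℕ) : AlgebraicClosure ℚ) ∈ (ExtCitation.primeLocalPlace q).nonunits
  rw [ValuationSubring.mem_nonunits_iff_or]
  right
  intro hmem
  have h : ‖padicEmbedding (q : ℕ) (((q : ℕ) : AlgebraicClosure ℚ))⁻¹‖₊ ≤ 1 := hmem
  rw [map_inv₀, map_natCast, nnnorm_inv] at h
  have hn : ‖((q : ℕ) : PadicAlgCl (q : ℕ))‖ = ((q : ℕ) : ℝ)⁻¹ := by
    rw [← map_natCast (algebraMap ℚ_[(q : ℕ)] (PadicAlgCl (q : ℕ))),
      PadicAlgCl.norm_extends (q : ℕ), Padic.norm_p]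
  have h' : (‖((q : ℕ) : PadicAlgCl (q : ℕ))‖)⁻¹ ≤ 1 := by exact_mod_cast h
  rw [hn, inv_inv] at h'
  exact absurd (Nat.cast_le_one.mp h') (not_le.mpr q.2.one_lt)

theorem loc_mem_decomposition {q : Nat.Primes} (g : Gam q) :
    loc q g ∈ (ExtCitation.primeLocalPlace q).decompositionSubgroup ℚ :=
  haveI : Fact (q : ℕ).Prime := ⟨q.2⟩
  localGaloisToGlobal_mem_decompositionSubgroup (q : ℕ) g

theorem inert_normal (q : Nat.Primes) : (inert q).Normal := by
  constructor
  intro s hs g
  obtain ⟨d, hd, hds⟩ := hs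
  refine ⟨(⟨_, loc_mem_decomposition g⟩ :
      (ExtCitation.primeLocalPlace q).decompositionSubgroup ℚ) * d *
        (⟨_, loc_mem_decomposition g⟩)⁻¹, ?_, ?_⟩
  · exact (MonoidHom.normal_ker _).conj_mem d hd _
  · simp only [Subgroup.coe_subtype, map_mul, map_inv]
    rw [← hds]
    rfl

section Frobenius

variable {A : ValuationSubring QBar} {r : ℕ}

theorem le_of_centre_eq {V V' : ValuationSubring QBar} (hr : r.Prime) (hV : V.LiesOverPrime r)
    (h : centre V = centre V') : V ≤ V' := by
  intro x hx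
  obtain ⟨s, hs, hsx⟩ := exists_unit_denominator V hx hr hV
  have hs' : (s : QBar) ∉ V'.nonunits := fun h' => hs (by
    rwa [← mem_centre, h, mem_centre])
  have hs1 : V'.valuation (s : QBar) = 1 := le_antisymm
    ((V'.valuation_le_one_iff _).mpr (SS2.integral_mem V' s.2))
    (not_lt.mp hs')
  have h2 := (V'.valuation_le_one_iff _).mpr (SS2.integral_mem V' hsx)
  rw [map_mul, hs1, one_mul] at h2
  exact (V'.valuation_le_one_iff _).mp h2

/-- a Frobenius element at every place -/
theorem exists_frobenius_place (hr : r.Prime) (hA : A.LiesOverPrime r) :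
    ∃ σ : GalQ, A.IsFrobeniusAt σ r := by
  obtain ⟨V, σ, hV, hσ⟩ := Alg.exists_place_frobenius r hr
  suffices h : ∃ g : GalQ, g • V = A by
    obtain ⟨g, rfl⟩ := h
    exact ⟨_, Chebotarev.isFrobeniusAt_conj hσ g⟩
  have := isGalois_qbar
  have hp := centre_isPrime V
  have hp' := centre_isPrime A
  have key : ∀ U : ValuationSubring QBar, U.LiesOverPrime r →
      (centre U).under ℤ = Ideal.span {(r : ℤ)} := by
    intro U hU
    have hPp : ((centre U).under ℤ).IsPrime :=
      have := centre_isPrime U; Ideal.IsPrime.under ℤ _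
    have hle : Ideal.span {(r : ℤ)} ≤ (centre U).under ℤ := by
      rw [Ideal.span_singleton_le_iff_mem, Ideal.mem_comap, mem_centre]
      simpa [ValuationSubring.LiesOverPrime] using hU
    have hmax : (Ideal.span {(r : ℤ)}).IsMaximal :=
      PrincipalIdealRing.isMaximal_of_irreducible (Nat.prime_iff_prime_int.mp hr).irreducible
    exact (hmax.eq_of_le hPp.ne_top hle).symm
  letI : TopologicalSpace ZBar := ⊥
  haveI : DiscreteTopology ZBar := ⟨rfl⟩
  haveI : ContinuousSMul GalQ ZBar := by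
    rw [continuousSMul_iff_stabilizer_isOpen]
    intro b
    have h1 := stabilizer_isOpen_of_isIntegral (K := ℚ) (L := QBar) (b : QBar)
    have : (MulAction.stabilizer GalQ b : Set GalQ)
        = (MulAction.stabilizer GalQ (b : QBar) : Set GalQ) := by
      ext g
      exact Subtype.ext_iff
    rw [this]
    exact h1
  haveI : TotallyDisconnectedSpace GalQ := by
    haveI := krullTopology_isTotallySeparated (K := ℚ) (L := QBar)
    infer_instance
  haveI : SMulCommClass GalQ ℤ ZBar := ⟨fun g n b => smul_comm g n b⟩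
  haveI : Algebra.IsInvariant ℤ ZBar GalQ := Alg.int_isInvariant
  obtain ⟨g, hg⟩ := Algebra.IsInvariant.exists_smul_of_under_eq_of_profinite (A := ℤ)
    (G := GalQ) (centre V) (centre A) ((key V hV).trans (key A hA).symm)
  refine ⟨g, ?_⟩
  have hc : centre A = centre (g • V) := by
    ext b
    rw [hg, Ideal.mem_pointwise_smul_iff_inv_smul_mem, mem_centre, mem_centre]
    constructor
    · intro h
      have := Chebotarev.smul_mem_nonunits g h
      rwa [show g ((g⁻¹ • b : ZBar) : QBar) = b from g.apply_symm_apply _] at this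
    · intro h
      have := Chebotarev.smul_mem_nonunits g⁻¹ h
      rwa [inv_smul_smul] at this
  exact le_antisymm (le_of_centre_eq hr (Chebotarev.liesOverPrime_smul g hV) hc.symm)
    (le_of_centre_eq hr hA hc)

theorem decomposition_apply_nonunits {d : GalQ} (hd : d ∈ A.decompositionSubgroup ℚ) {x : QBar}
    (hx : x ∈ A.nonunits) : d x ∈ A.nonunits := by
  have := Chebotarev.smul_mem_nonunits d hx
  rwa [MulAction.mem_stabilizer_iff.mp hd] at this

theorem frob_pow_sub_pow {φ : GalQ} (hφ : A.IsFrobeniusAt φ r) (i : ℕ) {x : QBar}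
    (hx : x ∈ A) : (φ ^ i) x - x ^ r ^ i ∈ A.nonunits := by
  induction i with
  | zero => simp
  | succ i ih =>
    have h1 := decomposition_apply_nonunits hφ.mem_decompositionSubgroup ih
    have h2 := Chebotarev.frob_sub_pow_mem hφ (pow_mem hx (r ^ i))
    rw [map_sub] at h1
    rw [ValuationSubring.mem_nonunits_iff] at h1 h2 ⊢
    rw [pow_succ' φ, AlgEquiv.mul_apply, pow_succ r, pow_mul,
      show φ ((φ ^ i) x) - (x ^ r ^ i) ^ r =
        (φ ((φ ^ i) x) - φ (x ^ r ^ i)) + (φ (x ^ r ^ i) - (x ^ r ^ i) ^ r) by ring]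
    exact lt_of_le_of_lt (Valuation.map_add _ _ _) (max_lt h1 h2)

/-- modulo inertia, the decomposition group is generated at finite level by Frobenius -/
theorem exists_pow_frob_inertia (hr : r.Prime) (hA : A.LiesOverPrime r) {φ : GalQ}
    (hφ : A.IsFrobeniusAt φ r) {d : GalQ} (hd : d ∈ A.decompositionSubgroup ℚ)
    (K : IntermediateField ℚ QBar) [FiniteDimensional ℚ K] [IsGalois ℚ K] :
    ∃ (i : ℕ), ∃ ρ ∈ A.inertiaSubgroupIn ℚ, ∀ x ∈ K, ρ x = ((φ ^ i)⁻¹ * d) x := by
  classical
  haveI : NumberField K := { to_finiteDimensional := inferInstance }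
  haveI : Fact r.Prime := ⟨hr⟩
  haveI := isGalois_qbar
  let φ₀ : 𝓞 K →+* ZBar :=
    { toFun := fun a => ⟨((a : K) : QBar),
        (NumberField.RingOfIntegers.isIntegral_coe a).map (K.val.restrictScalars ℤ)⟩
      map_one' := Subtype.ext (by simp)
      map_mul' := fun a b => Subtype.ext (by simp)
      map_zero' := Subtype.ext (by simp)
      map_add' := fun a b => Subtype.ext (by simp) }
  let P : Ideal (𝓞 K) := (centre A).comap φ₀
  haveI := centre_isPrime A
  haveI hPp : P.IsPrime := Ideal.IsPrime.comap φ₀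
  have hP : ∀ a : 𝓞 K, a ∈ P ↔ ((a : K) : QBar) ∈ A.nonunits := fun a => Iff.rfl
  have hqP : (r : 𝓞 K) ∈ P := by
    rw [hP]
    simpa [ValuationSubring.LiesOverPrime] using hA
  have hP0 : P ≠ ⊥ := fun hb => by
    rw [hb, Ideal.mem_bot] at hqP
    exact (Nat.cast_ne_zero.mpr hr.ne_zero) hqP
  haveI hPmax : P.IsMaximal := hPp.isMaximal hP0
  let τd : Gal(K/ℚ) := AlgEquiv.restrictNormalHom K d
  have hτd : ∀ x : K, ((τd x : K) : QBar) = d (x : QBar) := fun x =>
    AlgEquiv.restrictNormal_commutes d K x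
  let e : 𝓞 K ≃+* 𝓞 K := (galRestrict ℤ ℚ K (𝓞 K) τd).toRingEquiv
  have he : ∀ a : 𝓞 K, ((e a : K) : QBar) = d ((a : K) : QBar) := fun a => by
    rw [← hτd]
    exact congrArg Subtype.val (algebraMap_galRestrict_apply ℤ τd a)
  have hPe : P = P.map (e : 𝓞 K →+* 𝓞 K) := by
    rw [Ideal.map_comap_of_equiv]
    ext a
    refine (hP a).trans (Iff.trans ?_ ((Ideal.mem_comap (f := e.symm) (K := P)).trans (hP _)).symm)
    constructor <;> intro h
    · have := decomposition_apply_nonunits (inv_mem hd) h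
      convert this using 1
      apply d.injective
      rw [← he, show d (d⁻¹ _) = _ from d.apply_symm_apply _]
      exact congrArg (fun t : 𝓞 K => ((t : K) : QBar)) (e.apply_symm_apply a)
    · have := decomposition_apply_nonunits hd h
      rw [← he] at this
      simpa using this
  haveI : Finite (𝓞 K ⧸ P) := Ideal.finiteQuotientOfFreeOfNeBot P hP0
  letI : Field (𝓞 K ⧸ P) := Ideal.Quotient.field P
  haveI : CharP (𝓞 K ⧸ P) r := (CharP.charP_iff_prime_eq_zero hr).2 (by
    rw [← map_natCast (Ideal.Quotient.mk P), Ideal.Quotient.eq_zero_iff_mem]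
    exact hqP)
  letI : Algebra (ZMod r) (𝓞 K ⧸ P) := ZMod.algebra _ r
  let ψ : (𝓞 K ⧸ P) ≃ₐ[ZMod r] (𝓞 K ⧸ P) :=
    AlgEquiv.ofRingEquiv (f := Ideal.quotientEquiv P P e hPe) (fun a => by
      obtain ⟨n, rfl⟩ := ZMod.natCast_zmod_surjective a
      rw [map_natCast, map_natCast])
  obtain ⟨i, hi⟩ := (FiniteField.bijective_frobeniusAlgEquivOfAlgebraic_pow (ZMod r) (𝓞 K ⧸ P)).2 ψ
  refine ⟨i.1, ?_⟩
  let τ : Gal(K/ℚ) := AlgEquiv.restrictNormalHom K ((φ ^ i.1)⁻¹ * d)
  have hτ : ∀ x : K, ((τ x : K) : QBar) = ((φ ^ i.1)⁻¹ * d) (x : QBar) := fun x =>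
    AlgEquiv.restrictNormal_commutes _ K x
  have hmain : ∀ a : 𝓞 K, galRestrict ℤ ℚ K (𝓞 K) τ a - a ∈ P := by
    intro a
    rw [hP]
    have h1 : Ideal.Quotient.mk P (e a) = Ideal.Quotient.mk P (a ^ r ^ i.1) := by
      have := DFunLike.congr_fun hi (Ideal.Quotient.mk P a)
      simp only [AlgEquiv.coe_pow, FiniteField.coe_frobeniusAlgEquivOfAlgebraic,
        Nat.card_zmod] at this
      rw [map_pow]
      simpa [pow_iterate, ψ] using this.symm
    rw [Ideal.Quotient.mk_eq_mk_iff_sub_mem, hP] at h1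
    have ha : ((a : K) : QBar) ∈ A := SS2.integral_mem A
      ((NumberField.RingOfIntegers.isIntegral_coe a).map (K.val.restrictScalars ℤ))
    have h2 := frob_pow_sub_pow hφ i.1 ha
    have h3 : d ((a : K) : QBar) - (φ ^ i.1) ((a : K) : QBar) ∈ A.nonunits := by
      rw [ValuationSubring.mem_nonunits_iff] at h1 h2 ⊢
      have e1 : (((e a - a ^ r ^ i.1 : 𝓞 K) : K) : QBar)
          = d ((a : K) : QBar) - ((a : K) : QBar) ^ r ^ i.1 := by
        rw [← he]; simp
      rw [e1] at h1
      rw [show d ((a : K) : QBar) - (φ ^ i.1) ((a : K) : QBar) =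
        (d ((a : K) : QBar) - ((a : K) : QBar) ^ r ^ i.1) -
          ((φ ^ i.1) ((a : K) : QBar) - ((a : K) : QBar) ^ r ^ i.1) by ring]
      exact lt_of_le_of_lt (Valuation.map_sub _ _ _) (max_lt h1 h2)
    have h4 := decomposition_apply_nonunits
      (inv_mem (pow_mem hφ.mem_decompositionSubgroup i.1)) h3
    rw [map_sub, ← AlgEquiv.mul_apply, show ((φ ^ i.1)⁻¹) ((φ ^ i.1) ((a : K) : QBar)) = _ from
      (φ ^ i.1).symm_apply_apply _] at h4
    convert h4 using 1
    rw [← hτ]
    simp only [map_sub, AddSubgroupClass.coe_sub]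
    congr 1
    exact congrArg Subtype.val (algebraMap_galRestrict_apply ℤ τ a)
  obtain ⟨ρ, hρ, hρK⟩ := SS2.exists_inertia_lift hr hA K P hP τ hmain
  exact ⟨ρ, hρ, fun x hx => (hρK ⟨x, hx⟩).trans (hτ ⟨x, hx⟩)⟩

end Frobenius

/-- almost all primes are unramified in a number field -/
theorem finite_ramified_aux (F : IntermediateField ℚ QBar) [FiniteDimensional ℚ F] :
    {q : Nat.Primes | ∃ g ∈ inert q, loc q g ∉ F.fixingSubgroup}.Finite := by
  classical
  haveI := isAlgebraic_qbar
  have key : ∀ x ∈ F, {q : Nat.Primes | ∃ g ∈ inert q, loc q g x ≠ x}.Finite := by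
    intro x _
    obtain ⟨d, hd, hd0⟩ : ∃ d : ℤ, d ≠ 0 ∧ IsIntegral ℤ ((d : QBar) * x) := by
      obtain ⟨y, hy, hy'⟩ := ((IsFractionRing.isAlgebraic_iff ℤ ℚ QBar).mpr
        (Algebra.IsAlgebraic.isAlgebraic x)).exists_integral_multiple
      exact ⟨y, hy, by rwa [zsmul_eq_mul] at hy'⟩
    have hd' : (d : QBar) ≠ 0 := Int.cast_ne_zero.mpr hd
    set θ : QBar := (d : QBar) * x with hθ
    set R : Finset QBar := (minpoly ℤ θ).rootSet QBar |>.toFinset with hR
    let bad : QBar → Set Nat.Primes := fun δ =>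
      {q | (q : ℕ) ∣ ((minpoly ℤ δ).coeff 0).natAbs}
    refine ((R.finite_toSet.image (fun y => y - θ)).subset (Set.Subset.refl _) |>.biUnion
      (t := fun δ => if δ = 0 ∨ ¬ IsIntegral ℤ δ then ∅ else bad δ) fun δ _ => ?_).subset ?_
    · split_ifs with h
      · exact Set.finite_empty
      · push Not at h
        have hne : (minpoly ℤ δ).coeff 0 ≠ 0 := fun h0 => by
          have h1 := minpoly.isIntegrallyClosed_eq_field_fractions' ℚ h.2
          have h2 := minpoly.coeff_zero_ne_zero (h.2.tower_top (A := ℚ)) h.1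
          rw [h1, Polynomial.coeff_map, h0, map_zero] at h2
          exact h2 rfl
        exact (((Set.finite_le_nat ((minpoly ℤ δ).coeff 0).natAbs).preimage
          Nat.Primes.coe_nat_injective.injOn)).subset fun q hq =>
            Nat.le_of_dvd (Nat.pos_of_ne_zero (Int.natAbs_ne_zero.mpr hne)) hq
    · rintro q ⟨g, hg, hgx⟩
      set σ := loc q g
      have hσθ : σ θ ≠ θ := fun h => hgx (by
        rw [hθ, map_mul, map_intCast] at h
        exact mul_left_cancel₀ hd' h)
      have hint : IsIntegral ℤ (σ θ - θ) := (hd0.map (σ.toAlgHom.restrictScalars ℤ)).sub hd0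
      refine Set.mem_iUnion₂.mpr ⟨σ θ - θ, ⟨σ θ, ?_, rfl⟩, ?_⟩
      · rw [hR, Set.coe_toFinset, Polynomial.mem_rootSet_of_ne (minpoly.ne_zero hd0)]
        rw [show (σ θ) = (σ.toAlgHom.restrictScalars ℤ) θ from rfl, Polynomial.aeval_algHom_apply,
          minpoly.aeval, map_zero]
      · rw [if_neg (not_or.mpr ⟨sub_ne_zero.mpr hσθ, not_not.mpr hint⟩)]
        set A := ExtCitation.primeLocalPlace q
        have hlt : A.valuation (σ θ - θ) < 1 := (ValuationSubring.mem_nonunits_iff _).mp
          (inertia_apply_sub_mem hg (SS2.integral_mem A hd0))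
        set δ := σ θ - θ with hδ
        have h0 : (((minpoly ℤ δ).coeff 0 : ℤ) : QBar) =
            -(δ * Polynomial.aeval δ (minpoly ℤ δ).divX) := by
          have := congrArg (Polynomial.aeval δ) (Polynomial.X_mul_divX_add (minpoly ℤ δ))
          rw [minpoly.aeval, map_add, map_mul, Polynomial.aeval_X, Polynomial.aeval_C] at this
          exact eq_neg_of_add_eq_zero_right this
        have h1 : A.valuation ((((minpoly ℤ δ).coeff 0).natAbs : ℕ) : QBar) < 1 := by
          have h2 : A.valuation (((minpoly ℤ δ).coeff 0 : ℤ) : QBar) < 1 := by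
            rw [h0, Valuation.map_neg, map_mul]
            exact mul_lt_one_of_nonneg_of_lt_one_left zero_le hlt ((A.valuation_le_one_iff _).mpr
              (SS2.integral_mem A (IsIntegral.of_mem_of_fg _ hint.fg_adjoin_singleton _
                (Polynomial.aeval_mem_adjoin_singleton _ _))))
          rcases Int.natAbs_eq ((minpoly ℤ δ).coeff 0) with h | h <;>
            rw [h] at h2 <;> simpa using h2
        exact SS2.dvd_of_valuation_natCast_lt q.2 (lies_place q) h1
  let b := Module.finBasis ℚ F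
  refine (Set.finite_iUnion fun j => key (b j : QBar) (b j).2).subset ?_
  rintro q ⟨g, hg, hgF⟩
  by_contra hq
  apply hgF
  rw [IntermediateField.mem_fixingSubgroup_iff]
  intro x hx
  have hb : ∀ j, loc q g (b j : QBar) = b j := fun j => by
    by_contra hne
    exact hq (Set.mem_iUnion.mpr ⟨j, g, hg, hne⟩)
  have h := congrArg (fun t : F => (t : QBar)) (b.sum_repr ⟨x, hx⟩)
  simp only [AddSubmonoidClass.coe_finset_sum, SetLike.val_smul] at h
  rw [← h, map_sum]
  exact Finset.sum_congr rfl fun j _ => by rw [Rat.smul_def, map_mul, map_ratCast, hb]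

end FLTAgent.PT

end
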