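import Fermat.Agent.PT.Defs

/-!
Two-cocycles inflated from a cyclic quotient become coboundaries on the cyclic cover of degree `p`
when `p` kills the coefficients.
-/

set_option autoImplicit false
set_option linter.style.haveILetI false

universe u

open CategoryTheory groupCohomology

noncomputable section

namespace FLTAgent.PT

variable {k G : Type u} [CommRing k] [Group G] {M : Rep k G}

theorem sum_range_mul_of_periodic {X : Type*} [AddCommMonoid X] {a : ℕ → X} {n : ℕ}
    (ha : ∀ j, a (j + n) = a j) (m : ℕ) :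
    ∑ j ∈ Finset.range (n * m), a j = m • ∑ j ∈ Finset.range n, a j := by
  induction m with
  | zero => simp
  | succ m ih =>
    have hper : ∀ q j, a (n * q + j) = a j := fun q j => by
      induction q with
      | zero => simp
      | succ q ihq => rw [show n * (q + 1) + j = n * q + j + n by ring, ha, ihq]
    rw [Nat.mul_succ, Finset.sum_range_add, ih, succ_nsmul]
    congr 1
    exact Finset.sum_congr rfl fun j _ => hper m j

/-- A two-cocycle that comes from the quotient of `G` by `U`, cyclic of order `n` generated by `σ`,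
is the coboundary of a cochain that comes from the cyclic quotient of order `n * p` by `U'`. -/
theorem exists_bdry_of_cyclic {p n : ℕ} (hp : ∀ m : M, p • m = 0) {U U' : Subgroup G} [U'.Normal]
    (hle : U' ≤ U) {σ : G} (hσ : σ ^ n ∈ U) (hσ' : ∀ i, σ ^ i ∈ U' → n * p ∣ i)
    (hgen : ∀ g : G, ∃ i : ℕ, (σ ^ i)⁻¹ * g ∈ U')
    (htriv : ∀ u ∈ U, M.ρ u = 1) {f : G × G → M} (hf : f ∈ cocycles₂ M)
    (hfU : ∀ g g' u u', u ∈ U → u' ∈ U → f (g * u, g' * u') = f (g, g')) :
    ∃ b : G → M, (∀ g, ∀ u ∈ U', b (g * u) = b g) ∧ (d₁₂ M).hom b = f := by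
  classical
  set a : ℕ → M := fun j => f (σ ^ j, σ) with ha
  set β : ℕ → M := fun i => f (1, 1) - ∑ j ∈ Finset.range i, a j with hβ
  have haper : ∀ j, a (j + n) = a j := fun j => by
    have := hfU (σ ^ j) σ (σ ^ n) 1 hσ (one_mem U)
    rwa [mul_one, ← pow_add] at this
  have hnp : ∀ i, β (i + n * p) = β i := fun i => by
    simp only [hβ]
    rw [Finset.sum_range_add, show (∑ x ∈ Finset.range (n * p), a (i + x)) = 0 by
      rw [sum_range_mul_of_periodic (fun j => by rw [← add_assoc]; exact haper _), hp], add_zero]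
  have hcong : ∀ i j, i ≡ j [MOD n * p] → β i = β j := by
    have key : ∀ i q, β (i + n * p * q) = β i := fun i q => by
      induction q with
      | zero => simp
      | succ q ih => rw [show i + n * p * (q + 1) = i + n * p * q + n * p by ring, hnp, ih]
    intro i j hij
    rcases le_total i j with h | h
    · obtain ⟨q, hq⟩ := (Nat.modEq_iff_dvd' h).mp hij
      rw [show j = i + n * p * q by omega, key]
    · obtain ⟨q, hq⟩ := (Nat.modEq_iff_dvd' h).mp hij.symm
      rw [show i = j + n * p * q by omega, key]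
  choose e he using hgen
  -- congruent exponents give the same value
  have hexp : ∀ g i, (σ ^ i)⁻¹ * g ∈ U' → β (e g) = β i := fun g i hi => by
    have h1 : (σ ^ i)⁻¹ * σ ^ e g ∈ U' := by
      have h2 := mul_mem hi (inv_mem (he g))
      rwa [show (σ ^ i)⁻¹ * g * ((σ ^ e g)⁻¹ * g)⁻¹ = (σ ^ i)⁻¹ * σ ^ e g by group] at h2
    refine hcong _ _ ?_
    rcases le_total i (e g) with h | h
    · rw [show e g = i + (e g - i) by omega, pow_add, inv_mul_cancel_left] at h1
      exact ((Nat.modEq_iff_dvd' h).mpr (hσ' _ h1)).symm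
    · have h3 := inv_mem h1
      rw [mul_inv_rev, inv_inv, show i = e g + (i - e g) by omega, pow_add, inv_mul_cancel_left]
        at h3
      exact (Nat.modEq_iff_dvd' h).mpr (hσ' _ h3)
  refine ⟨fun g => β (e g), fun g u hu => hexp (g * u) (e g) ?_, ?_⟩
  · rw [← mul_assoc]
    exact mul_mem (he g) hu
  have hfc := (mem_cocycles₂_iff f).mp hf
  have key : ∀ i k, M.ρ (σ ^ i) (β k) - β (i + k) + β i = f (σ ^ i, σ ^ k) := by
    intro i k
    induction k with
    | zero =>
      rw [add_zero, pow_zero, show β 0 = f (1, 1) by simp [hβ], sub_add_cancel]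
      exact (cocycles₂_map_one_snd ⟨f, hf⟩ (σ ^ i)).symm
    | succ k ih =>
      have hb : ∀ j, β (j + 1) = β j - a j := fun j => by
        simp only [hβ, Finset.sum_range_succ]; abel
      have hc := hfc (σ ^ i) (σ ^ k) σ
      rw [← pow_succ, ← pow_add] at hc
      have e : f (σ ^ i, σ ^ (k + 1)) =
          f (σ ^ (i + k), σ) + f (σ ^ i, σ ^ k) - M.ρ (σ ^ i) (f (σ ^ k, σ)) := by
        rw [hc, add_sub_cancel_left]
      rw [← add_assoc, hb, hb, map_sub, e, ← ih]
      simp only [ha]
      abel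
  funext ⟨g, h⟩
  have hu : (σ ^ e g)⁻¹ * g ∈ U := hle (he g)
  have hu' : (σ ^ e h)⁻¹ * h ∈ U := hle (he h)
  have hgh : (σ ^ (e g + e h))⁻¹ * (g * h) ∈ U' := by
    have h1 := mul_mem (Subgroup.Normal.conj_mem inferInstance _ (he g) (σ ^ e h)⁻¹) (he h)
    rwa [show (σ ^ e h)⁻¹ * ((σ ^ e g)⁻¹ * g) * (σ ^ e h)⁻¹⁻¹ * ((σ ^ e h)⁻¹ * h) =
      (σ ^ (e g + e h))⁻¹ * (g * h) by rw [pow_add]; group] at h1
  simp only [d₁₂_hom_apply]
  rw [hexp (g * h) (e g + e h) hgh]
  have h2 := hfU (σ ^ e g) (σ ^ e h) _ _ hu hu'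
  rw [mul_inv_cancel_left, mul_inv_cancel_left] at h2
  rw [h2, ← key]
  congr 2
  conv_lhs => rw [show g = σ ^ e g * ((σ ^ e g)⁻¹ * g) by group]
  rw [map_mul, Module.End.mul_apply, htriv _ hu]
  rfl

end FLTAgent.PT

end
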