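import Fermat.Agent.PT.Tool.Basic
import Fermat.Agent.PT.Tool.Cyclic
import Fermat.Agent.PT.Tool.Places
import Fermat.Agent.Attach.Cyclotomic

/-!
Parcel B: classes from the unramified quotient of the local group.
-/

set_option autoImplicit false
set_option linter.style.haveILetI false

noncomputable section

open CategoryTheory groupCohomology

namespace FLTAgent.PT

variable {p : ℕ} [Fact p.Prime] {q : Nat.Primes} {M : Rep.{0} (ZMod p) GQ}

/-- `H²` of the unramified quotient vanishes -/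
theorem exists_unr_trivialisation_of_range
    (hrange : (ExtCitation.primeLocalPlace q).decompositionSubgroup ℚ ≤ (loc q).range)
    (hM : IsAdm (MonoidHom.id GQ) M) (hu : IsUnrAt q M)
    (c : levelCocycles₂ (loc q) (Rep.res (loc q) M))
    (hc : ∀ g g' s s', s ∈ inert q → s' ∈ inert q → c.1 (g * s, g' * s') = c.1 (g, g')) :
    ∃ y : Gam q → M, IsLevelConstant₁ (loc q) y ∧ (∀ g s, s ∈ inert q → y (g * s) = y g) ∧
      (d₁₂ (Rep.res (loc q) M)).hom y = c.1 := by
  classical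
  haveI : Fact (q : ℕ).Prime := ⟨q.2⟩
  haveI := inert_normal q
  have hA := lies_place q
  obtain ⟨φ, hφ⟩ := exists_frobenius_place q.2 hA
  obtain ⟨σ, hσ⟩ := hrange hφ.mem_decompositionSubgroup
  obtain ⟨F₁, hF₁, hcl⟩ := c.2.2
  obtain ⟨F₂, hF₂, hρ⟩ := hM.level
  obtain ⟨F, hF, hFle, hFn⟩ := exists_normal_lev (loc q) (F₁ ⊔ F₂)
  haveI := hF
  haveI := hFn
  haveI := finiteIndex_lev (r := loc q) F
  set n := (lev (loc q) F).index with hn
  have hn0 : n ≠ 0 := Subgroup.FiniteIndex.index_ne_zero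
  set U := inert q ⊔ lev (loc q) F with hU
  -- the cyclotomic level
  set m := (q : ℕ) ^ (n * p) - 1 with hm
  have hnp : 0 < n * p := Nat.mul_pos (Nat.pos_of_ne_zero hn0) (Fact.out : p.Prime).pos
  have h1q : 1 < (q : ℕ) ^ (n * p) := Nat.one_lt_pow hnp.ne' q.2.one_lt
  have hm0 : 0 < m := by omega
  haveI : NeZero m := ⟨hm0.ne'⟩
  have hqm : ¬ (q : ℕ) ∣ m := fun hd => by
    have h1 : (q : ℕ) ∣ m + 1 := by
      rw [hm, Nat.sub_add_cancel h1q.le]; exact dvd_pow_self _ hnp.ne'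
    exact q.2.not_dvd_one ((Nat.dvd_add_right hd).mp h1)
  obtain ⟨ζ, hζ⟩ := HasEnoughRootsOfUnity.exists_primitiveRoot (AlgebraicClosure ℚ) m
  haveI := FLTAgent.Common.isAlgebraic_qbar
  let Z := IntermediateField.adjoin ℚ ({ζ} : Set (AlgebraicClosure ℚ))
  haveI : FiniteDimensional ℚ Z :=
    IntermediateField.adjoin.finiteDimensional (Algebra.IsIntegral.isIntegral ζ)
  haveI := FLTAgent.Common.isGalois_qbar
  let E := IntermediateField.normalClosure ℚ ↥(F ⊔ Z) (AlgebraicClosure ℚ)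
  haveI : FiniteDimensional ℚ E := normalClosure.is_finiteDimensional ℚ _ _
  haveI : Normal ℚ E := normalClosure.normal ℚ ↥(F ⊔ Z) _
  haveI : IsGalois ℚ E := {}
  haveI : (lev (loc q) E).Normal :=
    (inferInstance : (E.fixingSubgroup).Normal).comap (loc q)
  have hFZ : F ⊔ Z ≤ E := (F ⊔ Z).le_normalClosure
  set U' := inert q ⊔ lev (loc q) E with hU'
  have hζfix : ∀ u ∈ U', loc q u ζ = ζ := by
    let S : Subgroup (Gam q) :=
      (MulAction.stabilizer GQ (ζ : AlgebraicClosure ℚ)).comap (loc q)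
    intro u hu
    have hle : U' ≤ S := sup_le (fun s hs => by
        show loc q s ζ = ζ
        rw [Attach.cyc_spec _ hζ.pow_eq_one, Attach.cyc_inertia q.2 hqm hA hs]
        rcases Nat.lt_or_ge 1 m with h | h
        · haveI : Fact (1 < m) := ⟨h⟩
          rw [ZMod.val_one, pow_one]
        · obtain h1 : m = 1 := le_antisymm h hm0
          obtain rfl : ζ = 1 := by
            have := hζ.pow_eq_one
            rwa [h1, pow_one] at this
          rw [one_pow])
      fun s hs => (IntermediateField.mem_fixingSubgroup_iff _ _).mp hs ζ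
        (hFZ ((le_sup_right : Z ≤ F ⊔ Z) (IntermediateField.mem_adjoin_simple_self ℚ ζ)))
    exact hle hu
  have hφζ : ∀ i : ℕ, (φ ^ i) ζ = ζ ^ (q : ℕ) ^ i := by
    intro i
    induction i with
    | zero => simp
    | succ i ih =>
      rw [pow_succ' φ, AlgEquiv.mul_apply, ih, map_pow, Attach.cyc_spec φ hζ.pow_eq_one,
        Attach.cyc_frobenius q.2 hqm hA hφ, ZMod.val_natCast, ← pow_eq_pow_mod _ hζ.pow_eq_one,
        ← pow_mul, ← pow_succ']
  have hord : ∀ i, σ ^ i ∈ U' → n * p ∣ i := by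
    intro i hi
    have h1 := hζfix _ hi
    rw [map_pow, hσ, hφζ] at h1
    have h2 : ζ ^ ((q : ℕ) ^ i - 1) = 1 := by
      have hz0 : ζ ≠ 0 := hζ.ne_zero hm0.ne'
      refine mul_right_cancel₀ hz0 ?_
      rw [← pow_succ, Nat.sub_add_cancel (Nat.one_le_pow _ _ q.2.pos), h1, one_mul]
    have h3 := (hζ.pow_eq_one_iff_dvd _).mp h2
    have h4 := Nat.pow_sub_one_gcd_pow_sub_one (q : ℕ) (n * p) i
    rw [← hm, Nat.gcd_eq_left h3, hm] at h4
    have h5 : (q : ℕ) ^ (n * p) = (q : ℕ) ^ Nat.gcd (n * p) i := by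
      have := Nat.one_le_pow (Nat.gcd (n * p) i) _ q.2.pos
      omega
    exact Nat.pow_right_injective q.2.two_le h5 ▸ Nat.gcd_dvd_right (n * p) i
  have hgen : ∀ g : Gam q, ∃ i : ℕ, (σ ^ i)⁻¹ * g ∈ U' := by
    intro g
    obtain ⟨i, ρ, hρI, hρE⟩ :=
      exists_pow_frob_inertia q.2 hA hφ (loc_mem_decomposition g) E
    obtain ⟨s, hs⟩ := hrange (Subgroup.map_subtype_le _ hρI)
    refine ⟨i, ?_⟩
    rw [← mul_inv_cancel_left s ((σ ^ i)⁻¹ * g)]
    refine Subgroup.mul_mem_sup (show loc q s ∈ _ from hs ▸ hρI) ?_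
    rw [Subgroup.mem_comap, IntermediateField.mem_fixingSubgroup_iff]
    intro x hx
    rw [map_mul, map_inv, map_mul, map_inv, map_pow, hs, hσ, AlgEquiv.mul_apply, ← hρE x hx]
    exact ρ.symm_apply_apply x
  have hσn : σ ^ n ∈ U := Subgroup.mem_sup_right (Subgroup.pow_index_mem _ σ)
  have hp : ∀ x : Rep.res (loc q) M, p • x = 0 := fun x => by
    rw [← Nat.cast_smul_eq_nsmul (ZMod p), ZMod.natCast_self, zero_smul]
  have hle : U' ≤ U := sup_le_sup_left (lev_anti (le_sup_left.trans hFZ)) _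
  have htriv : ∀ u ∈ U, (Rep.res (loc q) M).ρ u = 1 := fun u hu' => by
    obtain ⟨s, hs, l, hl, rfl⟩ := Subgroup.mem_sup_of_normal_right.mp hu'
    rw [map_mul]
    show M.ρ (loc q s) * M.ρ (loc q l) = 1
    rw [hu s hs, one_mul]
    exact hρ _ (lev_anti le_sup_right (hFle hl))
  obtain ⟨b, hb, hbd⟩ := exists_bdry_of_cyclic (M := Rep.res (loc q) M) hp hle hσn hord hgen htriv
    c.2.1 fun g g' u u' hu₁ hu₂ => by
      obtain ⟨s, hs, l, hl, rfl⟩ := Subgroup.mem_sup_of_normal_right.mp hu₁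
      obtain ⟨s', hs', l', hl', rfl⟩ := Subgroup.mem_sup_of_normal_right.mp hu₂
      rw [← mul_assoc, ← mul_assoc,
        hcl _ _ l l' (lev_anti le_sup_left (hFle hl)) (lev_anti le_sup_left (hFle hl')),
        hc _ _ _ _ hs hs']
  exact ⟨b, ⟨E, inferInstance, fun g s hs => hb g s (Subgroup.mem_sup_right hs)⟩,
    fun g s hs => hb g s (Subgroup.mem_sup_left hs), hbd⟩

end FLTAgent.PT

end
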