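import Fermat.Agent.PT.Delta

/-!
Parcel B: open subgroups and induced modules, the long exact sequence, naturality.
-/

set_option autoImplicit false
set_option linter.style.haveILetI false

noncomputable section

open CategoryTheory groupCohomology

namespace FLTAgent.PT

variable {p : ℕ} [Fact p.Prime] {G : Type} [Group G] {r : G →* GQ}

/-- the preimage of a level -/
abbrev lev (r : G →* GQ) (F : IntermediateField ℚ (AlgebraicClosure ℚ)) : Subgroup G :=
  F.fixingSubgroup.comap r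

theorem lev_anti {F F' : IntermediateField ℚ (AlgebraicClosure ℚ)} (h : F ≤ F') :
    lev r F' ≤ lev r F :=
  Subgroup.comap_mono (IntermediateField.fixingSubgroup_antitone h)

theorem finiteIndex_lev (F : IntermediateField ℚ (AlgebraicClosure ℚ)) [FiniteDimensional ℚ F] :
    (lev r F).FiniteIndex := by
  haveI : Finite (F →ₐ[ℚ] AlgebraicClosure ℚ) := Finite.of_fintype _
  haveI : Finite (G ⧸ lev r F) := by
    refine Finite.of_injective (fun q : G ⧸ lev r F =>
      ((r q.out : GQ) : AlgebraicClosure ℚ →ₐ[ℚ] AlgebraicClosure ℚ).comp F.val) fun q q' h => ?_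
    rw [← q.out_eq', ← q'.out_eq', QuotientGroup.eq, Subgroup.mem_comap,
      IntermediateField.mem_fixingSubgroup_iff]
    intro x hx
    have h' : r q.out x = r q'.out x := DFunLike.congr_fun h ⟨x, hx⟩
    rw [map_mul, map_inv, AlgEquiv.mul_apply, ← h']
    exact (r q.out).symm_apply_apply x
  exact Subgroup.finiteIndex_of_finite_quotient

/-- a normal open level inside finitely many open conditions -/
theorem exists_normal_lev (r : G →* GQ) (F : IntermediateField ℚ (AlgebraicClosure ℚ))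
    [FiniteDimensional ℚ F] :
    ∃ F' : IntermediateField ℚ (AlgebraicClosure ℚ), FiniteDimensional ℚ F' ∧
      lev r F' ≤ lev r F ∧ (lev r F').Normal := by
  obtain ⟨F', hfin, hle, hn⟩ := exists_normal_level F
  exact ⟨F', hfin, Subgroup.comap_mono hle, hn.comap r⟩

/-- a normal subgroup contained in `H` acts trivially on `G/H` -/
theorem smul_coset_eq {H U : Subgroup G} (hU : U.Normal) (hle : U ≤ H) {s : G} (hs : s ∈ U)
    (x : G ⧸ H) : s • x = x := by
  induction x using QuotientGroup.induction_on with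
  | H a =>
    rw [MulAction.Quotient.smul_mk, QuotientGroup.eq]
    refine hle ?_
    simpa [mul_assoc] using hU.conj_mem _ (inv_mem hs) a⁻¹

theorem finite_quotient_of_open {H : Subgroup G}
    (hH : ∃ F : IntermediateField ℚ (AlgebraicClosure ℚ), FiniteDimensional ℚ F ∧
      F.fixingSubgroup.comap r ≤ H) : Finite (G ⧸ H) := by
  obtain ⟨F, hF, hle⟩ := hH
  haveI := finiteIndex_lev (r := r) F
  haveI := Subgroup.finiteIndex_of_le hle
  exact Subgroup.finite_quotient_of_finiteIndex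

theorem isAdm_ind_of_open {H : Subgroup G}
    (hH : ∃ F : IntermediateField ℚ (AlgebraicClosure ℚ), FiniteDimensional ℚ F ∧
      F.fixingSubgroup.comap r ≤ H) {N : Rep.{0} (ZMod p) G} (hN : IsAdm r N) :
    IsAdm r (ind H N) := by
  haveI := finite_quotient_of_open hH
  haveI := hN.finite
  obtain ⟨F, hF, hle⟩ := hH
  obtain ⟨F', hF', hρ⟩ := hN.level
  obtain ⟨E, hE, hle', hn⟩ := exists_normal_lev r (F ⊔ F')
  refine ⟨inferInstanceAs (Module.Finite (ZMod p) (G ⧸ H → N)), E, hE, fun g hg => ?_⟩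
  refine LinearMap.ext fun f => funext fun x => ?_
  have h1 : N.ρ g = 1 := hρ g (lev_anti le_sup_right (hle' hg))
  have h2 : lev r E ≤ H := fun s hs => hle (lev_anti le_sup_left (hle' hs))
  show N.ρ g (f (g⁻¹ • x)) = f x
  rw [h1, smul_coset_eq hn h2 (inv_mem (show g ∈ lev r E from hg))]
  rfl

namespace SES

variable {A B C : Rep.{0} (ZMod p) G} (E : SES r A B C)

theorem pr_i (a : A) : E.pr (E.i a) = 0 := (E.exact _).2 ⟨a, rfl⟩

theorem range_del0' : LinearMap.range E.del0 = LinearMap.ker (h1push r E.i E.i_eqv) := by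
  ext x
  rw [LinearMap.mem_ker]
  refine ⟨fun ⟨y, hy⟩ => ?_, fun hx => ?_⟩
  · subst hy
    show h1push r E.i E.i_eqv (h1mk r A (E.del0Z y)) = 0
    rw [h1map_mk, h1mk_eq_zero_iff]
    exact ⟨E.sec y.1, fun g => (E.i_del0Z y g).symm⟩
  · obtain ⟨z, rfl⟩ := Submodule.mkQ_surjective _ x
    change h1push r E.i E.i_eqv (h1mk r A z) = 0 at hx
    rw [h1map_mk, h1mk_eq_zero_iff] at hx
    obtain ⟨b, hb⟩ := hx
    refine ⟨⟨E.pr b, fun g => ?_⟩, E.del0_eq (b := b) rfl fun g => (hb g).symm⟩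
    rw [← sub_eq_zero, ← E.pr_eqv, ← map_sub, hb g]
    exact E.pr_i _

theorem ker_del0' (x : cH0 C) : E.del0 x = 0 ↔ ∃ b ∈ cH0 B, E.pr b = x.1 := by
  refine ⟨fun h => ?_, fun ⟨b, hb, hbx⟩ => ?_⟩
  · obtain ⟨m, hm⟩ := (h1mk_eq_zero_iff r (E.del0Z x)).1 h
    refine ⟨E.sec x.1 - E.i m, fun g => ?_, by rw [map_sub, E.pr_sec, E.pr_i, sub_zero]⟩
    have h2 := congrArg E.i (hm g)
    rw [E.i_del0Z, map_sub, E.i_eqv] at h2
    rw [map_sub, sub_eq_sub_iff_sub_eq_sub]
    exact h2.symm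
  · rw [E.del0_eq (b := b) hbx (a := 0) (fun g => by rw [hb g, sub_self]; simp), map_zero]

theorem exact_h1' :
    LinearMap.range (h1push r E.i E.i_eqv) = LinearMap.ker (h1push r E.pr E.pr_eqv) := by
  ext x
  rw [LinearMap.mem_ker]
  refine ⟨fun ⟨y, hy⟩ => ?_, fun hx => ?_⟩
  · subst hy
    obtain ⟨z, rfl⟩ := Submodule.mkQ_surjective _ y
    show h1push r E.pr E.pr_eqv (h1push r E.i E.i_eqv (h1mk r A z)) = 0
    rw [h1map_mk, h1map_mk, h1mk_eq_zero_iff]
    exact ⟨0, fun g => by rw [map_zero, sub_zero]; exact (E.pr_i _).symm⟩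
  · obtain ⟨z, rfl⟩ := Submodule.mkQ_surjective _ x
    change h1push r E.pr E.pr_eqv (h1mk r B z) = 0 at hx
    rw [h1map_mk, h1mk_eq_zero_iff] at hx
    obtain ⟨n, hn⟩ := hx
    set b : G → B := fun g => z.1 g - (B.ρ g (E.sec n) - E.sec n) with hb
    have hi : ∀ g, E.i (E.back (b g)) = b g := fun g => E.i_back (by
      rw [hb, map_sub, map_sub, E.pr_eqv, E.pr_sec]
      exact sub_eq_zero.2 (hn g).symm)
    have hlev : IsLevelConstant₁ r b := by
      have := z.2.2.add ((E.level_d0 (E.sec n)).comp fun x => -x)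
      have e : b = z.1 + (fun x => -x) ∘ (d₀₁ B).hom (E.sec n) := by
        funext g; simp [hb, d₀₁_hom_apply, sub_eq_add_neg, add_comm]
      rwa [e]
    refine ⟨h1mk r A ⟨E.back ∘ b, (mem_cocycles₁_def _).2 fun g h => E.inj ?_,
      hlev.comp E.back⟩, ?_⟩
    · have hz := (mem_cocycles₁_def _).1 z.2.1 g h
      simp only [Function.comp_apply, map_add, map_sub, E.i_eqv, hi, map_zero]
      simp only [hb, map_sub, map_mul, Module.End.mul_apply]
      rw [← hz]
      abel
    · show h1push r E.i E.i_eqv (h1mk r A _) = h1mk r B z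
      rw [h1map_mk, ← sub_eq_zero, ← map_sub, h1mk_eq_zero_iff]
      refine ⟨-E.sec n, fun g => ?_⟩
      show _ = E.i (E.back (b g)) - z.1 g
      rw [hi, hb, map_neg]
      dsimp only
      rw [sub_sub_cancel_left]
      abel

theorem ker_del1' : LinearMap.ker E.del1 = LinearMap.range (h1push r E.pr E.pr_eqv) := by
  ext x
  rw [LinearMap.mem_ker]
  obtain ⟨z, rfl⟩ := Submodule.mkQ_surjective _ x
  refine ⟨fun h => ?_, fun ⟨y, hy⟩ => ?_⟩
  · obtain ⟨y, hyl, hy⟩ := (mem_levelCoboundaries₂_iff r A _).1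
      ((continuousH2π_eq_zero_iff r A _).1 (show h2mk r A (E.del1Z z) = 0 from h))
    set b : G → B := fun g => E.sec (z.1 g) - E.i (y g) with hb
    have hbl : IsLevelConstant₁ r b := by
      have := (IsLevelConstant₁.comp z.2.2 E.sec).add (hyl.comp fun a => -E.i a)
      have e : b = E.sec ∘ z.1 + (fun a => -E.i a) ∘ y := by
        funext g; simp [hb, sub_eq_add_neg]
      rwa [e]
    refine ⟨h1mk r B ⟨b, (mem_cocycles₁_def _).2 fun g h => ?_, hbl⟩, ?_⟩
    · have h1 := E.i_del1Z z (g, h)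
      rw [← congrFun hy (g, h), d₁₂_hom_apply, d₁₂_hom_apply] at h1
      simp only [Function.comp_apply, map_add, map_sub, E.i_eqv] at h1
      simp only [hb, map_sub]
      rw [← sub_eq_zero] at h1
      rw [← neg_eq_zero, ← h1]
      abel
    · show h1push r E.pr E.pr_eqv (h1mk r B _) = h1mk r C z
      rw [h1map_mk]
      congr 1
      refine Subtype.ext (funext fun g => ?_)
      show E.pr (b g) = z.1 g
      rw [hb, map_sub, E.pr_i, E.pr_sec, sub_zero]
  · obtain ⟨w, rfl⟩ := Submodule.mkQ_surjective _ y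
    show E.del1 (h1mk r C z) = 0
    rw [← show h1push r E.pr E.pr_eqv (h1mk r B w) = h1mk r C z from hy, h1map_mk,
      E.del1_eq (f := w.1) w.2.2 (fun g => rfl) (a := 0) (fun g => ?_), map_zero]
    rw [d₁₂_hom_apply]
    exact (map_zero E.i).trans ((mem_cocycles₁_def _).1 w.2.1 g.1 g.2).symm

theorem range_del1' : LinearMap.range E.del1 = LinearMap.ker (h2push r E.i E.i_eqv) := by
  ext x
  rw [LinearMap.mem_ker]
  refine ⟨fun ⟨y, hy⟩ => ?_, fun hx => ?_⟩
  · subst hy
    obtain ⟨z, rfl⟩ := Submodule.mkQ_surjective _ y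
    show h2push r E.i E.i_eqv (h2mk r A (E.del1Z z)) = 0
    rw [continuousH2Map_continuousH2π, continuousH2π_eq_zero_iff, mem_levelCoboundaries₂_iff]
    exact ⟨E.sec ∘ z.1, IsLevelConstant₁.comp z.2.2 _, funext fun g => (E.i_del1Z z g).symm⟩
  · obtain ⟨a, rfl⟩ := Submodule.mkQ_surjective _ x
    change h2push r E.i E.i_eqv (h2mk r A a) = 0 at hx
    rw [continuousH2Map_continuousH2π, continuousH2π_eq_zero_iff,
      mem_levelCoboundaries₂_iff] at hx
    obtain ⟨b, hbl, hb⟩ := hx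
    refine ⟨h1mk r C ⟨E.pr ∘ b, (mem_cocycles₁_def _).2 fun g h => ?_, hbl.comp _⟩,
      E.del1_eq hbl (fun g => rfl) fun g => (congrFun hb g).symm⟩
    have h1 := congrArg E.pr (congrFun hb (g, h))
    rw [d₁₂_hom_apply, map_add, map_sub, E.pr_eqv] at h1
    exact h1.trans (E.pr_i _)

theorem exact_h2' :
    LinearMap.range (h2push r E.i E.i_eqv) = LinearMap.ker (h2push r E.pr E.pr_eqv) := by
  ext x
  rw [LinearMap.mem_ker]
  refine ⟨fun ⟨y, hy⟩ => ?_, fun hx => ?_⟩
  · subst hy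
    obtain ⟨a, rfl⟩ := Submodule.mkQ_surjective _ y
    show h2push r E.pr E.pr_eqv (h2push r E.i E.i_eqv (h2mk r A a)) = 0
    rw [continuousH2Map_continuousH2π, continuousH2Map_continuousH2π]
    refine (continuousH2π_eq_zero_iff _ _ _).2 ?_
    convert (levelCoboundaries₂ r C).zero_mem using 1
    exact funext fun g => E.pr_i _
  · obtain ⟨f, rfl⟩ := Submodule.mkQ_surjective _ x
    change h2push r E.pr E.pr_eqv (h2mk r B f) = 0 at hx
    rw [continuousH2Map_continuousH2π, continuousH2π_eq_zero_iff,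
      mem_levelCoboundaries₂_iff] at hx
    obtain ⟨n, hnl, hn⟩ := hx
    set b : G × G → B := fun g => f.1 g - (d₁₂ B).hom (E.sec ∘ n) g with hb
    have hi : ∀ g, E.i (E.back (b g)) = b g := fun g => E.i_back (by
      rw [hb, map_sub, d₁₂_hom_apply]
      simp only [map_add, map_sub, E.pr_eqv, Function.comp_apply, E.pr_sec]
      exact sub_eq_zero.2 ((congrFun hn g).trans (by rfl)).symm)
    have hdn := E.level_d1 (hnl.comp E.sec)
    have hlev : IsLevelConstant₂ r b := by
      have := f.2.2.add (hdn.comp fun x => -x)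
      have e : b = f.1 + (fun x => -x) ∘ (d₁₂ B).hom (E.sec ∘ n) := by
        funext g; simp [hb, sub_eq_add_neg]
      rwa [e]
    refine ⟨h2mk r A ⟨E.back ∘ b, (mem_cocycles₂_def _).2 fun g h j => E.inj ?_,
      hlev.comp E.back⟩, ?_⟩
    · have hf := (mem_cocycles₂_def _).1 f.2.1 g h j
      simp only [Function.comp_apply, map_add, map_sub, E.i_eqv, hi, map_zero]
      simp only [hb, d₁₂_hom_apply, Function.comp_apply, map_add, map_sub, map_mul,
        Module.End.mul_apply, mul_assoc]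
      rw [← hf]
      abel
    · show h2push r E.i E.i_eqv (h2mk r A _) = h2mk r B f
      rw [continuousH2Map_continuousH2π, ← sub_eq_zero, ← map_sub, continuousH2π_eq_zero_iff,
        mem_levelCoboundaries₂_iff]
      refine ⟨fun g => -E.sec (n g), hnl.comp fun x => -E.sec x, funext fun g => ?_⟩
      show _ = E.i (E.back (b g)) - f.1 g
      rw [hi, hb]
      dsimp only
      rw [sub_sub_cancel_left]
      simp only [d₁₂_hom_apply, map_neg, Function.comp_apply]
      abel

theorem del0_natural' {G' : Type} [Group G'] (r' : G' →* GQ) (f : G' →* G)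
    (hf : ∀ g, r (f g) = r' g) (x : cH0 C) :
    h1map r f hf (LinearMap.id : A →ₗ[ZMod p] Rep.res f A) (fun _ _ => rfl) (E.del0 x) =
      (E.res r' f hf).del0 ⟨x.1, fun g => x.2 (f g)⟩ := by
  show h1map r f hf _ _ (h1mk r A (E.del0Z x)) = _
  rw [h1map_mk]
  refine ((E.res r' f hf).del0_eq (x := ⟨x.1, fun g => x.2 (f g)⟩) (b := E.sec x.1) (E.pr_sec x.1)
    fun g => ?_).symm
  exact E.i_del0Z x (f g)

theorem del1_natural' {G' : Type} [Group G'] (r' : G' →* GQ) (f : G' →* G)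
    (hf : ∀ g, r (f g) = r' g) (x : cH1 r C) :
    continuousH2Map f hf (LinearMap.id : A →ₗ[ZMod p] Rep.res f A) (fun _ _ => rfl) (E.del1 x) =
      (E.res r' f hf).del1
        (h1map r f hf (LinearMap.id : C →ₗ[ZMod p] Rep.res f C) (fun _ _ => rfl) x) := by
  obtain ⟨z, rfl⟩ := Submodule.mkQ_surjective _ x
  show continuousH2Map f hf _ _ (h2mk r A (E.del1Z z)) = (E.res r' f hf).del1 (h1map r f hf _ _ (h1mk r C z))
  rw [continuousH2Map_continuousH2π, h1map_mk]
  refine ((E.res r' f hf).del1_eq (f := fun g => E.sec (z.1 (f g)))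
    ((IsLevelConstant₁.precomp f hf z.2.2).comp E.sec) ?_ fun g => ?_).symm
  · exact fun g => E.pr_sec (z.1 (f g))
  show E.i ((E.del1Z z).1 (f g.1, f g.2)) = _
  rw [E.i_del1Z z (f g.1, f g.2), d₁₂_hom_apply, d₁₂_hom_apply]
  simp only [Function.comp_apply, map_mul]
  rfl

end SES

theorem cupH_natural' {G' : Type} [Group G'] {r' : G' →* GQ} (f : G' →* G) (hf : ∀ g, r (f g) = r' g)
    {A B C : Rep.{0} (ZMod p) G} {A' B' C' : Rep.{0} (ZMod p) G'}
    (φ : A →ₗ[ZMod p] B →ₗ[ZMod p] C) (φ' : A' →ₗ[ZMod p] B' →ₗ[ZMod p] C')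
    (hφ : IsEqv φ) (hφ' : IsEqv φ') (hB : IsAdm r B) (hB' : IsAdm r' B')
    (a : A →ₗ[ZMod p] A') (ha : ∀ g x, a (A.ρ (f g) x) = A'.ρ g (a x))
    (b : B →ₗ[ZMod p] B') (hb : ∀ g x, b (B.ρ (f g) x) = B'.ρ g (b x))
    (c : C →ₗ[ZMod p] C') (hc : ∀ g x, c (C.ρ (f g) x) = C'.ρ g (c x))
    (hcomp : ∀ x y, c (φ x y) = φ' (a x) (b y)) (x : cH1 r A) (y : cH1 r B) :
    continuousH2Map f hf c hc (cupH r φ hφ hB x y) =
      cupH r' φ' hφ' hB' (h1map r f hf a ha x) (h1map r f hf b hb y) := by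
  obtain ⟨u, rfl⟩ := Submodule.mkQ_surjective _ x
  obtain ⟨v, rfl⟩ := Submodule.mkQ_surjective _ y
  show continuousH2Map f hf c hc (cupH r φ hφ hB (h1mk r A u) (h1mk r B v)) =
    cupH r' φ' hφ' hB' (h1map r f hf a ha (h1mk r A u)) (h1map r f hf b hb (h1mk r B v))
  rw [cupH_mk, continuousH2Map_continuousH2π, h1map_mk, h1map_mk, cupH_mk]
  congr 1
  refine Subtype.ext (funext fun g => ?_)
  show c (φ (u.1 (f g.1)) (B.ρ (f g.1) (v.1 (f g.2)))) = φ' _ (B'.ρ g.1 _)
  rw [hcomp, hb]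
  rfl

end FLTAgent.PT

end
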