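import Fermat.Agent.PT.Tool.Places
import Fermat.Agent.PT.Tool.Unram

/-!
Parcel B: unramified classes and finiteness of the bad primes.
-/

set_option autoImplicit false
set_option linter.style.haveILetI false

noncomputable section

open CategoryTheory groupCohomology

namespace FLTAgent.PT

variable {p : ℕ} [Fact p.Prime] {q : Nat.Primes} {M : Rep.{0} (ZMod p) GQ}

theorem mem_unr1_iff' (hM : IsUnrAt q M) (z : Z1 (loc q) (Rep.res (loc q) M)) :
    h1mk _ _ z ∈ unr1 q M ↔ ∀ s ∈ inert q, z.1 s = 0 := by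
  refine ⟨fun h => ?_, fun h => Submodule.mem_map.mpr ⟨z, h, rfl⟩⟩
  obtain ⟨w, hw, hwz⟩ := Submodule.mem_map.mp h
  rw [← sub_eq_zero, ← map_sub, h1mk_eq_zero_iff] at hwz
  obtain ⟨m, hm⟩ := hwz
  intro s hs
  have h1 := hm s
  rw [show (Rep.res (loc q) M).ρ s m = M.ρ (loc q s) m from rfl, hM s hs, Module.End.one_apply,
    sub_self] at h1
  have h2 : (w : Gam q → M) s = 0 := hw s hs
  have h3 : (w : Gam q → M) s - (z : Gam q → M) s = 0 := h1.symm
  rwa [h2, zero_sub, neg_eq_zero] at h3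

theorem finite_not_unr' (hM : IsAdm (MonoidHom.id GQ) M) :
    {q : Nat.Primes | ¬IsUnrAt q M}.Finite := by
  obtain ⟨F, hF, hρ⟩ := hM.level
  refine (finite_ramified_aux F).subset fun q hq => ?_
  by_contra hc
  exact hq fun g hg => hρ _ (not_not.mp fun h => hc ⟨g, hg, h⟩)

theorem finite_ram1' (x : cH1 (MonoidHom.id GQ) M) :
    {q : Nat.Primes | res1 q M x ∉ unr1 q M}.Finite := by
  obtain ⟨z, rfl⟩ := Submodule.mkQ_surjective _ x
  obtain ⟨F, hF, hz⟩ := z.2.2
  refine (finite_ramified_aux F).subset fun q hq => ?_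
  by_contra hc
  refine hq ?_
  change res1 q M (h1mk _ _ z) ∈ _
  rw [res1, h1map_mk]
  refine Submodule.mem_map.mpr ⟨_, fun s hs => ?_, rfl⟩
  have h1 : z.1 1 = 0 := cocycles₁_map_one ⟨z.1, z.2.1⟩
  have h2 := hz 1 (loc q s) (not_not.mp fun h => hc ⟨s, hs, h⟩)
  rw [one_mul, h1] at h2
  exact h2

theorem finite_res2_of_range
    (hrange : ∀ q, (ExtCitation.primeLocalPlace q).decompositionSubgroup ℚ ≤ (loc q).range)
    (hM : IsAdm (MonoidHom.id GQ) M) (c : cH2 (MonoidHom.id GQ) M) :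
    {q : Nat.Primes | res2 q M c ≠ 0}.Finite := by
  obtain ⟨z, rfl⟩ := Submodule.mkQ_surjective _ c
  obtain ⟨F, hF, hz⟩ := z.2.2
  obtain ⟨F', hF', hρ⟩ := hM.level
  refine ((finite_ramified_aux F).union (finite_ramified_aux F')).subset fun q hq => ?_
  by_contra hc
  simp only [Set.mem_union, Set.mem_setOf_eq, not_or, not_exists, not_and, not_not] at hc
  refine hq ?_
  change res2 q M (h2mk _ _ z) = 0
  rw [res2, continuousH2Map_continuousH2π, continuousH2π_eq_zero_iff, mem_levelCoboundaries₂_iff]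
  refine (exists_unr_trivialisation_of_range (hrange q) hM (fun g hg => hρ _ (hc.2 g hg)) _
    ?_).imp fun y h => ⟨h.1, h.2.2⟩
  intro g g' s s' hs hs'
  show z.1 (loc q (g * s), loc q (g' * s')) = z.1 (loc q g, loc q g')
  rw [map_mul, map_mul]
  exact hz _ _ _ _ (hc.1 s hs) (hc.1 s' hs')

end FLTAgent.PT

end
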