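import Fermat.Agent.PT.Tool.Basic

/-!
Parcel B: the induction principle. Every finite smooth module is a direct summand of the module
induced from the preimage `L` of a Sylow subgroup, and the latter is filtered by copies of
`Map(G/L, 𝔽_p)`.
-/

set_option autoImplicit false
set_option linter.style.haveILetI false

noncomputable section

open CategoryTheory groupCohomology

namespace FLTAgent.PT

variable {p : ℕ} [Fact p.Prime]

section Filtration

variable {L : Subgroup GQ} {M : Rep.{0} (ZMod p) GQ} (W : Submodule (ZMod p) M)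
  (hW : ∀ l ∈ L, ∀ w ∈ W, M.ρ l w ∈ W)

/-- the sections `f` of `ind L M` with `f (g L) ∈ g W` -/
def fibred : Submodule (ZMod p) (GQ ⧸ L → M) :=
  ⨅ x : GQ ⧸ L, (W.map (M.ρ x.out)).comap (LinearMap.proj x)

variable {W}

theorem mem_fibred {f : GQ ⧸ L → M} :
    f ∈ fibred W ↔ ∀ x : GQ ⧸ L, ∃ w ∈ W, M.ρ x.out w = f x := by
  simp [fibred, Submodule.mem_iInf]

include hW in
theorem map_rep_eq (g : GQ) : W.map (M.ρ ((g : GQ ⧸ L).out)) = W.map (M.ρ g) := by
  obtain ⟨⟨l, hl⟩, hg⟩ := QuotientGroup.mk_out_eq_mul L g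
  rw [hg, map_mul]
  apply le_antisymm
  · rintro _ ⟨w, hw, rfl⟩
    exact ⟨M.ρ l w, hW l hl w hw, rfl⟩
  · rintro _ ⟨w, hw, rfl⟩
    exact ⟨M.ρ l⁻¹ w, hW _ (inv_mem hl) w hw, by
      rw [← map_mul, ← Module.End.mul_apply, ← map_mul, mul_inv_cancel_right]⟩

include hW in
theorem fibred_stable (g : GQ) {f : GQ ⧸ L → M} (hf : f ∈ fibred W) :
    indRho L M g f ∈ fibred W := by
  simp only [fibred, Submodule.mem_iInf, Submodule.mem_comap] at hf ⊢
  intro x
  induction x using QuotientGroup.induction_on with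
  | H a =>
    have h := hf (g⁻¹ • (a : GQ ⧸ L))
    rw [MulAction.Quotient.smul_mk, map_rep_eq hW] at h
    rw [map_rep_eq hW]
    obtain ⟨w, hw, hwf⟩ := h
    refine ⟨w, hw, ?_⟩
    show M.ρ a w = M.ρ g (f (g⁻¹ • (a : GQ ⧸ L)))
    rw [MulAction.Quotient.smul_mk]
    show _ = M.ρ g ((LinearMap.proj (R := ZMod p) (φ := fun _ : GQ ⧸ L => (M : Type))
      ((g⁻¹ • a : GQ) : GQ ⧸ L)) f)
    rw [← hwf, ← Module.End.mul_apply, ← map_mul, smul_eq_mul, mul_inv_cancel_left]

/-- the module of these sections -/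
abbrev fibRep : Rep.{0} (ZMod p) GQ :=
  Rep.of (show Representation (ZMod p) GQ ↥(fibred (L := L) W) from
    { toFun := fun g => (indRho L M g).restrict fun _ hf => fibred_stable hW g hf
      map_one' := LinearMap.ext fun f => Subtype.ext (by simp)
      map_mul' := fun g h => LinearMap.ext fun f => Subtype.ext (by simp) })

theorem fibRep_apply (g : GQ) (f : fibred (L := L) W) (x : GQ ⧸ L) :
    (((fibRep hW).ρ g f : fibred (L := L) W) : GQ ⧸ L → M) x = M.ρ g (f.1 (g⁻¹ • x)) := rfl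

theorem isAdm_fibRep (hL : ∃ F : IntermediateField ℚ (AlgebraicClosure ℚ),
      FiniteDimensional ℚ F ∧ F.fixingSubgroup.comap (MonoidHom.id GQ) ≤ L)
    (hM : IsAdm (MonoidHom.id GQ) M) : IsAdm (MonoidHom.id GQ) (fibRep hW) := by
  have h := isAdm_ind_of_open hL hM
  obtain ⟨F, hF, hρ⟩ := h.level
  haveI := h.finite
  refine ⟨inferInstanceAs (Module.Finite (ZMod p) ↥(fibred (L := L) W)), F, hF,
    fun g hg => LinearMap.ext fun f => Subtype.ext ?_⟩
  exact LinearMap.congr_fun (hρ g hg) f.1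

end Filtration

/-- a nonzero functional invariant under a group acting through a `p`-group -/
theorem exists_invariant_functional {L : Subgroup GQ} {M : Rep.{0} (ZMod p) GQ}
    [Module.Finite (ZMod p) M] {W : Submodule (ZMod p) M} (hW : ∀ l ∈ L, ∀ w ∈ W, M.ρ l w ∈ W)
    (hp : ∀ l ∈ L, ∃ k : ℕ, M.ρ (l ^ p ^ k) = 1) (hne : W ≠ ⊥) :
    ∃ φ : W →ₗ[ZMod p] ZMod p, φ ≠ 0 ∧
      ∀ (l : GQ) (hl : l ∈ L) (w : W), φ ⟨M.ρ l w, hW l hl w w.2⟩ = φ w := by
  classical
  let V := Module.Dual (ZMod p) W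
  let ρW : L →* Module.End (ZMod p) V :=
    { toFun := fun l => ((M.ρ ((l⁻¹ : L) : GQ)).restrict
        fun w hw => hW _ (l⁻¹ : L).2 w hw).dualMap
      map_one' := LinearMap.ext fun φ => LinearMap.ext fun w => by
        show φ _ = φ w
        congr 1
        exact Subtype.ext (by simp)
      map_mul' := fun a b => LinearMap.ext fun φ => LinearMap.ext fun w => by
        show φ _ = φ _
        congr 1
        exact Subtype.ext (by simp [mul_inv_rev]) }
  let Φ : L →* (Module.End (ZMod p) V)ˣ := ρW.toHomUnits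
  have hP : IsPGroup p Φ.range := by
    rintro ⟨_, ⟨⟨l, hl⟩, rfl⟩⟩
    obtain ⟨k, hk⟩ := hp l⁻¹ (inv_mem hl)
    refine ⟨k, Subtype.ext ?_⟩
    rw [SubmonoidClass.coe_pow, Subgroup.coe_one, ← map_pow]
    refine Units.ext (LinearMap.ext fun φ => LinearMap.ext fun w => ?_)
    show φ _ = φ w
    congr 1
    apply Subtype.ext
    show M.ρ ((((⟨l, hl⟩ : L) ^ p ^ k)⁻¹ : L) : GQ) (w : M) = (w : M)
    rw [Subgroup.coe_inv, SubmonoidClass.coe_pow, ← inv_pow, hk]
    rfl
  haveI : Module.Finite (ZMod p) V := inferInstance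
  haveI : Finite V := Module.finite_of_finite (ZMod p)
  have hcard : p ∣ Nat.card V := by
    have : Fintype V := Fintype.ofFinite V
    have h1 : Nat.card V = p ^ Module.finrank (ZMod p) V := by
      rw [Nat.card_eq_fintype_card, Module.card_eq_pow_finrank (K := ZMod p), ZMod.card]
    rw [h1]
    refine dvd_pow_self p ?_
    rw [Subspace.dual_finrank_eq, Ne, Submodule.finrank_eq_zero]
    exact hne
  letI : MulAction Φ.range V := MulAction.compHom V Φ.range.subtype
  obtain ⟨φ, hφ, hφ0⟩ := hP.exists_fixed_point_of_prime_dvd_card_of_fixed_point V hcard (a := 0)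
    (fun u => smul_zero (u : (Module.End (ZMod p) V)ˣ))
  refine ⟨φ, Ne.symm hφ0, fun l hl w => ?_⟩
  have h := DFunLike.congr_fun (hφ ⟨Φ ⟨l, hl⟩⁻¹, MonoidHom.mem_range.mpr ⟨_, rfl⟩⟩) w
  refine Eq.trans (congrArg φ (Subtype.ext ?_)) h
  show M.ρ l (w : M) = M.ρ (((⟨l, hl⟩ : L)⁻¹⁻¹ : L) : GQ) (w : M)
  rw [inv_inv]

/-- the induction principle -/
theorem adm_induction' (P : Rep.{0} (ZMod p) GQ → Prop)
    (hzero : ∀ M, IsAdm (MonoidHom.id GQ) M → Subsingleton M → P M)
    (hperm : ∀ H : Subgroup GQ, (∃ F : IntermediateField ℚ (AlgebraicClosure ℚ),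
        FiniteDimensional ℚ F ∧ F.fixingSubgroup.comap (MonoidHom.id GQ) ≤ H) →
      (∀ h ∈ H, ExtCitation.cycloChar p h = 1) → P (ind H (one p)))
    (hext : ∀ (A B C : Rep.{0} (ZMod p) GQ) (E : SES (MonoidHom.id GQ) A B C),
      IsAdm (MonoidHom.id GQ) A → IsAdm (MonoidHom.id GQ) C → P A → P C → P B)
    (hsummand : ∀ (A B : Rep.{0} (ZMod p) GQ) (i : A →ₗ[ZMod p] B) (s : B →ₗ[ZMod p] A),
      IsAdm (MonoidHom.id GQ) A → IsAdm (MonoidHom.id GQ) B →
      (∀ g a, i (A.ρ g a) = B.ρ g (i a)) → (∀ g b, s (B.ρ g b) = A.ρ g (s b)) →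
      (∀ a, s (i a) = a) → P B → P A)
    (M : Rep.{0} (ZMod p) GQ) (hM : IsAdm (MonoidHom.id GQ) M) : P M := by
  classical
  have hpr : p.Prime := Fact.out
  haveI := hM.finite
  obtain ⟨F₁, hF₁, hρ₁⟩ := hM.level
  obtain ⟨F₂, hF₂, hρ₂⟩ := (isAdm_mu p).level
  obtain ⟨F, hF, hFle, hFn⟩ := exists_normal_level (F₁ ⊔ F₂)
  haveI := hF
  haveI := hFn
  haveI : F.fixingSubgroup.FiniteIndex := finiteIndex_lev (r := MonoidHom.id GQ) F
  haveI : Finite (GQ ⧸ F.fixingSubgroup) := Subgroup.finite_quotient_of_finiteIndex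
  obtain ⟨S⟩ : Nonempty (Sylow p (GQ ⧸ F.fixingSubgroup)) := inferInstance
  set L : Subgroup GQ := S.1.comap (QuotientGroup.mk' F.fixingSubgroup) with hL
  have hNL : F.fixingSubgroup ≤ L := fun g hg => by
    rw [hL, Subgroup.mem_comap, QuotientGroup.mk'_apply, (QuotientGroup.eq_one_iff g).mpr hg]
    exact one_mem _
  have hLopen : ∃ F : IntermediateField ℚ (AlgebraicClosure ℚ),
      FiniteDimensional ℚ F ∧ F.fixingSubgroup.comap (MonoidHom.id GQ) ≤ L := ⟨F, hF, hNL⟩
  haveI := finite_quotient_of_open (r := MonoidHom.id GQ) hLopen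
  letI := Fintype.ofFinite (GQ ⧸ L)
  have hidx : ¬ p ∣ L.index := by
    rw [hL, Subgroup.index_comap_of_surjective _ (QuotientGroup.mk'_surjective _)]
    exact S.not_dvd_index
  have hpow : ∀ l ∈ L, ∃ k : ℕ, l ^ p ^ k ∈ F.fixingSubgroup := fun l hl => by
    obtain ⟨k, hk⟩ := S.2 ⟨QuotientGroup.mk' _ l, hl⟩
    refine ⟨k, (QuotientGroup.eq_one_iff _).mp ?_⟩
    exact congrArg Subtype.val hk
  have hMp : ∀ l ∈ L, ∃ k : ℕ, M.ρ (l ^ p ^ k) = 1 := fun l hl => by
    obtain ⟨k, hk⟩ := hpow l hl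
    exact ⟨k, hρ₁ _ (IntermediateField.fixingSubgroup_antitone le_sup_left (hFle hk))⟩
  have hχ : ∀ l ∈ L, ExtCitation.cycloChar p l = 1 := fun l hl => by
    obtain ⟨k, hk⟩ := hpow l hl
    apply Units.ext
    simpa [Representation.twist_apply, ZMod.pow_card_pow] using LinearMap.congr_fun
      (hρ₂ (l ^ p ^ k) (IntermediateField.fixingSubgroup_antitone le_sup_right (hFle hk))) 1
  -- the filtration
  have key : ∀ (n : ℕ) (W : Submodule (ZMod p) M) (hW : ∀ l ∈ L, ∀ w ∈ W, M.ρ l w ∈ W),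
      Module.finrank (ZMod p) W ≤ n → P (fibRep hW) := by
    intro n
    induction n with
    | zero =>
      intro W hW h0
      have hW0 : W = ⊥ := Submodule.finrank_eq_zero.mp (Nat.le_zero.mp h0)
      refine hzero _ (isAdm_fibRep hW hLopen hM) ⟨fun f f' => Subtype.ext (funext fun x => ?_)⟩
      obtain ⟨w, hw, hwf⟩ := mem_fibred.mp f.2 x
      obtain ⟨w', hw', hwf'⟩ := mem_fibred.mp f'.2 x
      rw [hW0, Submodule.mem_bot] at hw hw'
      rw [← hwf, ← hwf', hw, hw']
    | succ n ih =>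
      intro W hW hn
      by_cases hW0 : W = ⊥
      · exact ih W hW (by rw [hW0, finrank_bot]; omega)
      obtain ⟨φ, hφ0, hφ⟩ := exists_invariant_functional hW hMp hW0
      let W₀ : Submodule (ZMod p) M := (LinearMap.ker φ).map W.subtype
      have hW₀ : ∀ l ∈ L, ∀ w ∈ W₀, M.ρ l w ∈ W₀ := by
        rintro l hl _ ⟨w, hw, rfl⟩
        exact ⟨⟨M.ρ l w, hW l hl w w.2⟩, (hφ l hl w).trans hw, rfl⟩
      have hle : W₀ ≤ W := Submodule.map_subtype_le _ _
      have hlt : Module.finrank (ZMod p) W₀ < Module.finrank (ZMod p) W := by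
        refine Submodule.finrank_lt_finrank_of_lt (lt_of_le_of_ne hle fun h => hφ0 ?_)
        refine LinearMap.ext fun w => ?_
        have hw : (w : M) ∈ W₀ := h.symm ▸ w.2
        obtain ⟨w', hw', e⟩ := hw
        rw [← Subtype.ext e]
        exact hw'
      obtain ⟨w₀, hw₀⟩ : ∃ w₀ : W, φ w₀ = 1 := by
        obtain ⟨w, hw⟩ : ∃ w, φ w ≠ 0 := by
          by_contra hc
          push Not at hc
          exact hφ0 (LinearMap.ext hc)
        exact ⟨(φ w)⁻¹ • w, by rw [map_smul, smul_eq_mul, inv_mul_cancel₀ hw]⟩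
      have hmem : ∀ (f : fibred (L := L) W) (g : GQ), M.ρ g⁻¹ (f.1 g) ∈ W := fun f g => by
        have h := (Submodule.mem_iInf _).mp f.2 (g : GQ ⧸ L)
        rw [Submodule.mem_comap, map_rep_eq hW] at h
        obtain ⟨w, hw, hwf⟩ := h
        rw [show f.1 (g : GQ ⧸ L) = M.ρ g w from hwf.symm, ← Module.End.mul_apply, ← map_mul,
          inv_mul_cancel, map_one]
        exact hw
      let pr : fibred (L := L) W →ₗ[ZMod p] (GQ ⧸ L → ZMod p) :=
        { toFun := fun f x => φ ⟨M.ρ x.out⁻¹ (f.1 x), by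
            have := hmem f x.out; rwa [QuotientGroup.out_eq'] at this⟩
          map_add' := fun f f' => funext fun x => by
            show φ _ = φ _ + φ _
            rw [← map_add]
            exact congrArg φ (Subtype.ext (map_add _ _ _))
          map_smul' := fun c f => funext fun x => by
            show φ _ = c • φ _
            rw [← map_smul]
            exact congrArg φ (Subtype.ext (map_smul _ _ _)) }
      have hpr : ∀ (f : fibred (L := L) W) (g : GQ),
          pr f (g : GQ ⧸ L) = φ ⟨M.ρ g⁻¹ (f.1 g), hmem f g⟩ := by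
        intro f g
        obtain ⟨⟨l, hl⟩, hg⟩ := QuotientGroup.mk_out_eq_mul L g
        rw [← hφ l⁻¹ (inv_mem hl) ⟨_, hmem f g⟩]
        refine congrArg φ (Subtype.ext ?_)
        show M.ρ ((g : GQ ⧸ L).out)⁻¹ (f.1 g) = M.ρ l⁻¹ (M.ρ g⁻¹ (f.1 g))
        rw [hg, mul_inv_rev, map_mul]
        rfl
      refine hext (fibRep hW₀) (fibRep hW) (ind L (one p))
        { i := Submodule.inclusion (fun f hf => mem_fibred.mpr fun x =>
            (mem_fibred.mp hf x).imp fun w h => ⟨hle h.1, h.2⟩)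
          pr := pr
          i_eqv := fun g f => rfl
          pr_eqv := fun g f => funext fun x => ?_
          inj := Submodule.inclusion_injective _
          surj := fun c => ?_
          exact := fun f => ?_
          adm := isAdm_fibRep hW hLopen hM }
        (isAdm_fibRep hW₀ hLopen hM) (isAdm_ind_of_open hLopen ⟨inferInstance, ⊥, inferInstance,
          fun g _ => LinearMap.ext fun x => rfl⟩)
        (ih W₀ hW₀ (by omega)) (hperm L hLopen hχ)
      · induction x using QuotientGroup.induction_on with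
        | H a =>
          show pr ((fibRep hW).ρ g f) (a : GQ ⧸ L) = pr f (g⁻¹ • (a : GQ ⧸ L))
          rw [hpr, MulAction.Quotient.smul_mk, hpr]
          refine congrArg φ (Subtype.ext ?_)
          show M.ρ a⁻¹ (M.ρ g (f.1 (g⁻¹ • (a : GQ ⧸ L)))) = M.ρ (g⁻¹ • a)⁻¹ _
          rw [← Module.End.mul_apply, ← map_mul, smul_eq_mul, mul_inv_rev, inv_inv,
            MulAction.Quotient.smul_mk]
          rfl
      · refine ⟨⟨fun x => M.ρ x.out (c x • (w₀ : M)),
          mem_fibred.mpr fun x => ⟨_, W.smul_mem _ w₀.2, rfl⟩⟩, funext fun x => ?_⟩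
        show φ _ = c x
        refine (congrArg φ (Subtype.ext ?_ : _ = c x • w₀)).trans
          (by rw [map_smul, hw₀, smul_eq_mul, mul_one])
        show M.ρ x.out⁻¹ (M.ρ x.out (c x • (w₀ : M))) = _
        rw [← Module.End.mul_apply, ← map_mul, inv_mul_cancel, map_one]
        rfl
      · constructor
        · intro h
          refine ⟨⟨f.1, mem_fibred.mpr fun x => ?_⟩, rfl⟩
          refine ⟨M.ρ x.out⁻¹ (f.1 x), ⟨⟨_, ?_⟩, congrFun h x, rfl⟩, ?_⟩
          · have := hmem f x.out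
            rwa [QuotientGroup.out_eq'] at this
          · rw [← Module.End.mul_apply, ← map_mul, mul_inv_cancel, map_one]
            rfl
        · rintro ⟨f₀, rfl⟩
          funext x
          obtain ⟨w, hw, hwf⟩ := mem_fibred.mp f₀.2 x
          obtain ⟨w', hw', e⟩ := hw
          show φ _ = 0
          rw [← show φ w' = 0 from hw']
          refine congrArg φ (Subtype.ext ?_)
          show M.ρ x.out⁻¹ (f₀.1 x) = (w' : M)
          rw [← hwf, ← Module.End.mul_apply, ← map_mul, inv_mul_cancel, map_one,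
            Module.End.one_apply]
          exact e.symm
  have hW : ∀ l ∈ L, ∀ w ∈ (⊤ : Submodule (ZMod p) M), M.ρ l w ∈ (⊤ : Submodule (ZMod p) M) :=
    fun _ _ _ _ => trivial
  have htop : ∀ f : GQ ⧸ L → M, f ∈ fibred (L := L) (⊤ : Submodule (ZMod p) M) := fun f =>
    mem_fibred.mpr fun x => ⟨M.ρ x.out⁻¹ (f x), trivial, by
      rw [← Module.End.mul_apply, ← map_mul, mul_inv_cancel, map_one]; rfl⟩
  have hind : P (ind L M) := hsummand _ _ (LinearMap.id.codRestrict _ htop) (Submodule.subtype _)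
    (isAdm_ind_of_open hLopen hM) (isAdm_fibRep hW hLopen hM) (fun _ _ => rfl) (fun _ _ => rfl)
    (fun _ => rfl) (key _ ⊤ hW le_rfl)
  have hne : (L.index : ZMod p) ≠ 0 := fun h => hidx ((ZMod.natCast_eq_zero_iff _ _).mp h)
  refine hsummand M (ind L M) (indConst L M) ((L.index : ZMod p)⁻¹ • indSum L M) hM
    (isAdm_ind_of_open hLopen hM) (fun g a => rfl) (fun g f => ?_) (fun a => ?_) hind
  · simp only [LinearMap.smul_apply, map_smul]
    congr 1
    show ∑ x, M.ρ g (f (g⁻¹ • x)) = M.ρ g (∑ x, f x)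
    rw [map_sum]
    exact Fintype.sum_equiv (MulAction.toPerm g⁻¹) _ _ fun x => rfl
  · show (L.index : ZMod p)⁻¹ • ∑ _x : GQ ⧸ L, a = a
    rw [Finset.sum_const, Finset.card_univ, ← Nat.cast_smul_eq_nsmul (ZMod p), smul_smul,
      ← Nat.card_eq_fintype_card, ← Subgroup.index_eq_card, inv_mul_cancel₀ hne, one_smul]

end FLTAgent.PT

end
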