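import Fermat.Agent.PT.Tool.Basic

/-!
Parcel B: Shapiro's lemma for a group acting on the cosets through a homomorphism, in degrees `≤ 2`.
-/

set_option autoImplicit false
set_option linter.style.haveILetI false

noncomputable section

open CategoryTheory groupCohomology

namespace FLTAgent.PT.Shap

variable {p : ℕ} [Fact p.Prime] {G : Type} [Group G] {G' : Type} [Group G'] (f : G' →* G)
  (H : Subgroup G) (N : Rep.{0} (ZMod p) G)

/-- the stabiliser of a coset -/
abbrev st (x : G ⧸ H) : Subgroup G' := (MulAction.stabilizer G x).comap f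

/-- the twisted action -/
abbrev act (g : G') : N →ₗ[ZMod p] N := N.ρ (f g)

theorem act_mul (g g' : G') (n : N) : act f N (g * g') n = act f N g (act f N g' n) := by
  simp [act, map_mul, Module.End.mul_apply]

theorem act_one (n : N) : act f N 1 n = n := by simp [act]

theorem res_ind_apply (g : G') (a : G ⧸ H → N) (z : G ⧸ H) :
    ((Rep.res f (ind H N)).ρ g a : G ⧸ H → N) z = act f N g (a ((f g)⁻¹ • z)) := rfl

/-- a choice of transporters from orbit representatives -/
structure Sect (R : Set (G ⧸ H)) where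
  y : G ⧸ H → R
  t : G ⧸ H → G'
  t_smul : ∀ z, f (t z) • (y z : G ⧸ H) = z
  y_smul : ∀ (g : G') z, y (f g • z) = y z
  y_rep : ∀ x : R, y x = x
  t_rep : ∀ x : R, t x = 1

variable {f H N}

theorem exists_sect {R : Set (G ⧸ H)}
    (hR : ∀ x : G ⧸ H, ∃! y : R, ∃ g : G', f g • (y : G ⧸ H) = x) : Nonempty (Sect f H R) := by
  classical
  choose y hy huniq using hR
  choose t ht using hy
  have hrep : ∀ x : R, y x = x := fun x => (huniq x x ⟨1, by simp⟩).symm
  refine ⟨⟨y, fun z => if z ∈ R then 1 else t z, fun z => ?_, fun g z => ?_, hrep, fun x => by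
    simp [x.2]⟩⟩
  · split_ifs with h
    · rw [map_one, one_smul]; exact congrArg Subtype.val (hrep ⟨z, h⟩)
    · exact ht z
  · exact (huniq _ _ ⟨g * t z, by rw [map_mul, mul_smul, ht]⟩).symm

variable {R : Set (G ⧸ H)} (S : Sect f H R)

/-- the source of the transporter after translation -/
def tr (z : G ⧸ H) (g : G') : G' := S.t ((f g)⁻¹ • z)

/-- the component of `g` in the stabiliser -/
def comp (z : G ⧸ H) (g : G') : G' := (S.t z)⁻¹ * g * tr S z g

theorem t_comp (z : G ⧸ H) (g : G') : S.t z * comp S z g = g * tr S z g := by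
  rw [comp, ← mul_assoc, ← mul_assoc, mul_inv_cancel, one_mul]

theorem y_inv (z : G ⧸ H) (g : G') : S.y ((f g)⁻¹ • z) = S.y z := by
  rw [← map_inv, S.y_smul]

theorem comp_mem (z : G ⧸ H) (g : G') : comp S z g ∈ st f H (S.y z : G ⧸ H) := by
  show f (comp S z g) • (S.y z : G ⧸ H) = (S.y z : G ⧸ H)
  have h := S.t_smul ((f g)⁻¹ • z)
  rw [y_inv] at h
  rw [comp, map_mul, map_mul, mul_smul, mul_smul, tr, h, smul_inv_smul, map_inv,
    inv_smul_eq_iff, S.t_smul]

theorem comp_mul (z : G ⧸ H) (g g' : G') :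
    comp S z (g * g') = comp S z g * comp S ((f g)⁻¹ • z) g' := by
  simp only [comp, tr, map_mul, mul_inv_rev, mul_smul]
  group

theorem comp_rep (x : R) (g : st f H (x : G ⧸ H)) : comp S (x : G ⧸ H) g = g := by
  have h : (f g)⁻¹ • (x : G ⧸ H) = x := by
    rw [inv_smul_eq_iff]; exact (MulAction.mem_stabilizer_iff.1 g.2).symm
  rw [comp, tr, h, S.t_rep, inv_one, one_mul, mul_one]

variable (N)

/-- extension of a family of cochains on the stabilisers -/
def ext1 (b : ∀ x : R, st f H (x : G ⧸ H) → N) (x : R) (g : G') : N := by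
  classical
  exact if h : g ∈ st f H (x : G ⧸ H) then b x ⟨g, h⟩ else 0

/-- extension of a family of two-cochains on the stabilisers -/
def ext2 (c : ∀ x : R, st f H (x : G ⧸ H) × st f H (x : G ⧸ H) → N) (x : R) (g g' : G') : N := by
  classical
  exact if h : g ∈ st f H (x : G ⧸ H) ∧ g' ∈ st f H (x : G ⧸ H) then
    c x (⟨g, h.1⟩, ⟨g', h.2⟩) else 0

theorem ext1_apply (b : ∀ x : R, st f H (x : G ⧸ H) → N) {x : R} (g : st f H (x : G ⧸ H)) :
    ext1 N b x g = b x g := by
  classical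
  rw [ext1, dif_pos g.2]

theorem ext2_apply (c : ∀ x : R, st f H (x : G ⧸ H) × st f H (x : G ⧸ H) → N) {x : R}
    (g g' : st f H (x : G ⧸ H)) : ext2 N c x g g' = c x (g, g') := by
  classical
  rw [ext2, dif_pos ⟨g.2, g'.2⟩]

/-- the induced one-cochain -/
def psi1 (b : ∀ x : R, st f H (x : G ⧸ H) → N) : G' → Rep.res f (ind H N) :=
  fun g z => act f N (S.t z) (ext1 N b (S.y z) (comp S z g))

/-- the induced two-cochain -/
def psi2 (c : ∀ x : R, st f H (x : G ⧸ H) × st f H (x : G ⧸ H) → N) :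
    G' × G' → Rep.res f (ind H N) :=
  fun g z => act f N (S.t z)
    (ext2 N c (S.y z) (comp S z g.1) (comp S ((f g.1)⁻¹ • z) g.2))

/-- the coboundary of an induced cochain is induced -/
theorem d_psi1 (b : ∀ x : R, st f H (x : G ⧸ H) → N) (g g' : G') (z : G ⧸ H) :
    ((d₁₂ (Rep.res f (ind H N))).hom (psi1 N S b) (g, g') : G ⧸ H → N) z =
      act f N (S.t z)
        (act f N (comp S z g) (ext1 N b (S.y z) (comp S ((f g)⁻¹ • z) g')) -
          ext1 N b (S.y z) (comp S z g * comp S ((f g)⁻¹ • z) g') +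
          ext1 N b (S.y z) (comp S z g)) := by
  rw [d₁₂_hom_apply]
  show act f N g (act f N (S.t ((f g)⁻¹ • z)) (ext1 N b (S.y ((f g)⁻¹ • z))
    (comp S ((f g)⁻¹ • z) g'))) - act f N (S.t z) (ext1 N b (S.y z) (comp S z (g * g')))
    + act f N (S.t z) (ext1 N b (S.y z) (comp S z g)) = _
  rw [y_inv, comp_mul, map_add, map_sub, ← act_mul, ← act_mul, t_comp, tr]

theorem cocycle₁_apply {c : G' → Rep.res f (ind H N)}
    (hc : c ∈ cocycles₁ (Rep.res f (ind H N))) (g g' : G') (z : G ⧸ H) :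
    (c (g * g') : G ⧸ H → N) z =
      act f N g ((c g' : G ⧸ H → N) ((f g)⁻¹ • z)) + (c g : G ⧸ H → N) z :=
  congrFun ((mem_cocycles₁_iff c).1 hc g g') z

theorem cocycle₂_apply {c : G' × G' → Rep.res f (ind H N)}
    (hc : c ∈ cocycles₂ (Rep.res f (ind H N))) (g g' j : G') (z : G ⧸ H) :
    (c (g * g', j) : G ⧸ H → N) z + (c (g, g') : G ⧸ H → N) z =
      act f N g ((c (g', j) : G ⧸ H → N) ((f g)⁻¹ • z)) + (c (g, g' * j) : G ⧸ H → N) z :=
  congrFun ((mem_cocycles₂_iff c).1 hc g g' j) z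

/-- the homotopy in degree two -/
def hom2 (c : G' × G' → Rep.res f (ind H N)) : G' → Rep.res f (ind H N) :=
  fun g z => (c (g, tr S z g) : G ⧸ H → N) z - (c (S.t z, comp S z g) : G ⧸ H → N) z

/-- every two-cocycle is the induced one plus a coboundary -/
theorem d_hom2 {c : G' × G' → Rep.res f (ind H N)} (hc : c ∈ cocycles₂ (Rep.res f (ind H N)))
    (g g' : G') (z : G ⧸ H) :
    ((d₁₂ (Rep.res f (ind H N))).hom (hom2 N S c) (g, g') : G ⧸ H → N) z =
      (c (g, g') : G ⧸ H → N) z - act f N (S.t z)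
        ((c (comp S z g, comp S ((f g)⁻¹ • z) g') : G ⧸ H → N) (S.y z)) := by
  rw [d₁₂_hom_apply]
  show act f N g ((c (g', tr S ((f g)⁻¹ • z) g') : G ⧸ H → N) ((f g)⁻¹ • z) -
      (c (S.t ((f g)⁻¹ • z), comp S ((f g)⁻¹ • z) g') : G ⧸ H → N) ((f g)⁻¹ • z)) -
    ((c (g * g', tr S z (g * g')) : G ⧸ H → N) z -
      (c (S.t z, comp S z (g * g')) : G ⧸ H → N) z) +
    ((c (g, tr S z g) : G ⧸ H → N) z - (c (S.t z, comp S z g) : G ⧸ H → N) z) = _
  set z' := (f g)⁻¹ • z with hz'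
  have e1 : tr S z (g * g') = tr S z' g' := by
    rw [tr, tr, hz', map_mul, mul_inv_rev, mul_smul]
  have h2 : g' * tr S z' g' = S.t z' * comp S z' g' := (t_comp S z' g').symm
  have h3 : (f (S.t z))⁻¹ • z = (S.y z : G ⧸ H) := by rw [inv_smul_eq_iff, S.t_smul]
  have A := cocycle₂_apply N hc g g' (tr S z' g') z
  have B := cocycle₂_apply N hc g (S.t z') (comp S z' g') z
  have D := cocycle₂_apply N hc (S.t z) (comp S z g) (comp S z' g') z
  rw [h2] at A
  rw [h3, t_comp, tr, ← hz'] at D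
  rw [map_sub, e1, comp_mul, ← hz', show tr S z g = S.t z' from rfl]
  linear_combination (norm := module) -A + B - D

section Level

variable {r : G →* GQ} {r' : G' →* GQ} (hf : ∀ g, r (f g) = r' g)
include hf

theorem lev_res {E : IntermediateField ℚ (AlgebraicClosure ℚ)} {s : G'} (hs : s ∈ lev r' E) :
    f s ∈ lev r E := by
  show r (f s) ∈ E.fixingSubgroup
  rw [hf]; exact hs

/-- a level whose elements fix every coset and refine given levels -/
theorem exists_good_level (hH : ∃ F : IntermediateField ℚ (AlgebraicClosure ℚ),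
      FiniteDimensional ℚ F ∧ F.fixingSubgroup.comap r ≤ H) {ι : Type} [Finite ι]
    (F : ι → IntermediateField ℚ (AlgebraicClosure ℚ)) (hF : ∀ i, FiniteDimensional ℚ (F i)) :
    ∃ E : IntermediateField ℚ (AlgebraicClosure ℚ), FiniteDimensional ℚ E ∧
      (lev r' E).Normal ∧ (∀ i, lev r' E ≤ lev r' (F i)) ∧
      (∀ s ∈ lev r' E, ∀ z : G ⧸ H, f s • z = z) := by
  obtain ⟨F₀, hF₀, hle⟩ := hH
  haveI := hF₀; haveI := hF
  haveI : FiniteDimensional ℚ (⨆ i, F i : IntermediateField ℚ (AlgebraicClosure ℚ)) :=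
    IntermediateField.finiteDimensional_iSup_of_finite
  obtain ⟨E, hE, hle', hn⟩ := exists_normal_level (F₀ ⊔ ⨆ i, F i)
  refine ⟨E, hE, hn.comap r', fun i s hs => ?_, fun s hs z => ?_⟩
  · exact IntermediateField.fixingSubgroup_antitone
      ((le_iSup F i).trans le_sup_right) (hle' hs)
  · refine smul_coset_eq (hn.comap r) (fun a ha => hle ?_) (lev_res hf hs) z
    exact IntermediateField.fixingSubgroup_antitone le_sup_left (hle' ha)

omit hf in
theorem comp_mul_lev {E : IntermediateField ℚ (AlgebraicClosure ℚ)} (hn : (lev r' E).Normal)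
    (hfix : ∀ s ∈ lev r' E, ∀ z : G ⧸ H, f s • z = z) (z : G ⧸ H) (g : G') {s : G'}
    (hs : s ∈ lev r' E) :
    (f (g * s))⁻¹ • z = (f g)⁻¹ • z ∧ tr S z (g * s) = tr S z g ∧
      ∃ s' ∈ lev r' E, comp S z (g * s) = comp S z g * s' ∧ ∀ x : G ⧸ H, s' ∈ st f H x := by
  have h1 : (f (g * s))⁻¹ • z = (f g)⁻¹ • z := by
    rw [map_mul, mul_inv_rev, mul_smul, inv_smul_eq_iff, hfix s hs]
  have h2 : tr S z (g * s) = tr S z g := by rw [tr, tr, h1]
  have h3 : (tr S z g)⁻¹ * s * tr S z g ∈ lev r' E := by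
    simpa using hn.conj_mem s hs (tr S z g)⁻¹
  refine ⟨h1, h2, _, h3, ?_, fun x => hfix _ h3 x⟩
  rw [comp, comp, h2]
  group

theorem level_psi1 (hH : ∃ F : IntermediateField ℚ (AlgebraicClosure ℚ),
      FiniteDimensional ℚ F ∧ F.fixingSubgroup.comap r ≤ H) [Finite R]
    {b : ∀ x : R, st f H (x : G ⧸ H) → N}
    (hb : ∀ x : R, IsLevelConstant₁ (r'.comp (st f H (x : G ⧸ H)).subtype) (b x)) :
    IsLevelConstant₁ r' (psi1 N S b) := by
  choose F hF hlev using hb
  obtain ⟨E, hE, hn, hle, hfix⟩ := exists_good_level hf hH F hF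
  refine ⟨E, hE, fun g s hs => funext fun z => ?_⟩
  obtain ⟨-, -, s', hs', he, hst⟩ := comp_mul_lev S hn hfix z g hs
  show act f N (S.t z) (ext1 N b (S.y z) (comp S z (g * s))) =
    act f N (S.t z) (ext1 N b (S.y z) (comp S z g))
  have hm := comp_mem S z g
  have e := hlev (S.y z) ⟨_, hm⟩ ⟨s', hst _⟩ (hle (S.y z) hs')
  rw [← ext1_apply N b, ← ext1_apply N b] at e
  rw [he]
  exact congrArg _ e

theorem level_psi2 (hH : ∃ F : IntermediateField ℚ (AlgebraicClosure ℚ),
      FiniteDimensional ℚ F ∧ F.fixingSubgroup.comap r ≤ H) [Finite R]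
    {c : ∀ x : R, st f H (x : G ⧸ H) × st f H (x : G ⧸ H) → N}
    (hc : ∀ x : R, IsLevelConstant₂ (r'.comp (st f H (x : G ⧸ H)).subtype) (c x)) :
    IsLevelConstant₂ r' (psi2 N S c) := by
  choose F hF hlev using hc
  obtain ⟨E, hE, hn, hle, hfix⟩ := exists_good_level hf hH F hF
  refine ⟨E, hE, fun g g' s s' hs hs' => funext fun z => ?_⟩
  obtain ⟨h1, -, u, hu, he, hust⟩ := comp_mul_lev S hn hfix z g hs
  obtain ⟨-, -, u', hu', he', hust'⟩ := comp_mul_lev S hn hfix ((f g)⁻¹ • z) g' hs'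
  show act f N (S.t z) (ext2 N c (S.y z) (comp S z (g * s)) (comp S ((f (g * s))⁻¹ • z) (g' * s')))
    = act f N (S.t z) (ext2 N c (S.y z) (comp S z g) (comp S ((f g)⁻¹ • z) g'))
  have hm := comp_mem S z g
  have hm' : comp S ((f g)⁻¹ • z) g' ∈ st f H (S.y z : G ⧸ H) := by
    have := comp_mem S ((f g)⁻¹ • z) g'; rwa [y_inv] at this
  have e := hlev (S.y z) ⟨_, hm⟩ ⟨_, hm'⟩ ⟨u, hust _⟩ ⟨u', hust' _⟩ (hle (S.y z) hu)
    (hle (S.y z) hu')
  rw [← ext2_apply N c, ← ext2_apply N c] at e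
  rw [h1, he, he']
  exact congrArg _ e

theorem level_hom2 (hH : ∃ F : IntermediateField ℚ (AlgebraicClosure ℚ),
      FiniteDimensional ℚ F ∧ F.fixingSubgroup.comap r ≤ H)
    {c : G' × G' → Rep.res f (ind H N)} (hc : IsLevelConstant₂ r' c) :
    IsLevelConstant₁ r' (hom2 N S c) := by
  obtain ⟨F, hF, hlev⟩ := hc
  obtain ⟨E, hE, hn, hle, hfix⟩ := exists_good_level hf hH (fun _ : Unit => F) fun _ => hF
  refine ⟨E, hE, fun g s hs => funext fun z => ?_⟩
  obtain ⟨-, h2, u, hu, he, -⟩ := comp_mul_lev S hn hfix z g hs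
  show (c (g * s, tr S z (g * s)) : G ⧸ H → N) z - (c (S.t z, comp S z (g * s)) : G ⧸ H → N) z = _
  have e1 := hlev g (tr S z g) s 1 (hle () hs) (one_mem (lev r' F))
  have e2 := hlev (S.t z) (comp S z g) 1 u (one_mem (lev r' F)) (hle () hu)
  rw [mul_one] at e1 e2
  rw [h2, he, e1, e2]
  rfl

end Level

/-- evaluation at a coset -/
abbrev ev (x : G ⧸ H) :
    Rep.res f (ind H N) →ₗ[ZMod p] Rep.res (f.comp (st f H x).subtype) N :=
  LinearMap.proj x

theorem bijective₀ {R : Set (G ⧸ H)}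
    (hR : ∀ x : G ⧸ H, ∃! y : R, ∃ g : G', f g • (y : G ⧸ H) = x)
    (φ : cH0 (Rep.res f (ind H N)) →
      ∀ x : R, cH0 (Rep.res (f.comp (st f H (x : G ⧸ H)).subtype) N))
    (hφ : ∀ a x, ((φ a x) : N) = (a.1 : G ⧸ H → N) x) : Function.Bijective φ := by
  obtain ⟨S⟩ := exists_sect hR
  have key : ∀ a : cH0 (Rep.res f (ind H N)), ∀ z,
      (a.1 : G ⧸ H → N) z = act f N (S.t z) ((φ a (S.y z)) : N) := fun a z => by
    have h := congrFun (a.2 (S.t z)) z
    rw [res_ind_apply] at h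
    rw [show (f (S.t z))⁻¹ • z = (S.y z : G ⧸ H) by rw [inv_smul_eq_iff, S.t_smul]] at h
    rw [hφ, h]
  refine ⟨fun a a' h => Subtype.ext (funext fun z => by rw [key, key, h]), fun b => ?_⟩
  refine ⟨⟨fun z => act f N (S.t z) ((b (S.y z)) : N), fun g => funext fun z => ?_⟩,
    funext fun x => Subtype.ext ?_⟩
  · rw [res_ind_apply]
    show act f N g (act f N (S.t ((f g)⁻¹ • z)) ((b (S.y ((f g)⁻¹ • z))) : N)) =
      act f N (S.t z) ((b (S.y z)) : N)
    rw [← act_mul, y_inv, show g * S.t ((f g)⁻¹ • z) = S.t z * comp S z g from (t_comp S z g).symm,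
      act_mul]
    exact congrArg _ ((b (S.y z)).2 ⟨_, comp_mem S z g⟩)
  · rw [hφ]
    show act f N (S.t (x : G ⧸ H)) ((b (S.y x)) : N) = _
    rw [S.t_rep, S.y_rep, act_one]

theorem bijective₁ {r : G →* GQ} {r' : G' →* GQ} (hf : ∀ g, r (f g) = r' g)
    (hH : ∃ F : IntermediateField ℚ (AlgebraicClosure ℚ),
      FiniteDimensional ℚ F ∧ F.fixingSubgroup.comap r ≤ H) {R : Set (G ⧸ H)}
    (hR : ∀ x : G ⧸ H, ∃! y : R, ∃ g : G', f g • (y : G ⧸ H) = x)
    (he : ∀ (x : G ⧸ H) (g : st f H x) (a : Rep.res f (ind H N)),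
      ev N x ((Rep.res f (ind H N)).ρ ((st f H x).subtype g) a) =
        (Rep.res (f.comp (st f H x).subtype) N).ρ g (ev N x a)) :
    Function.Bijective (LinearMap.pi fun x : R =>
      h1map (r' := r'.comp (st f H x.1).subtype) r' (st f H x.1).subtype (fun _ => rfl) (ev N x.1)
        (he x.1)) := by
  obtain ⟨S⟩ := exists_sect hR
  haveI := finite_quotient_of_open (r := r) hH
  haveI : Finite R := inferInstance
  refine ⟨?_, fun w => ?_⟩
  · refine (injective_iff_map_eq_zero _).2 fun w hw => ?_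
    obtain ⟨c, rfl⟩ := Submodule.mkQ_surjective _ w
    have hx : ∀ x : R, ∃ b : N, ∀ g : st f H x.1, act f N g b - b = (c.1 g : G ⧸ H → N) x := by
      intro x
      have h1 := congrFun hw x
      change h1map (r' := r'.comp (st f H x.1).subtype) r' (st f H x.1).subtype (fun _ => rfl)
        (ev N x.1) (he x.1) (h1mk r' _ c) = 0 at h1
      rw [h1map_mk, h1mk_eq_zero_iff] at h1
      exact h1
    choose b hb using hx
    show h1mk r' _ c = 0
    rw [h1mk_eq_zero_iff]
    refine ⟨fun z => act f N (S.t z) (b (S.y z)) - (c.1 (S.t z) : G ⧸ H → N) z,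
      fun g => funext fun z => ?_⟩
    show act f N g (act f N (S.t ((f g)⁻¹ • z)) (b (S.y ((f g)⁻¹ • z))) -
      (c.1 (S.t ((f g)⁻¹ • z)) : G ⧸ H → N) ((f g)⁻¹ • z)) -
      (act f N (S.t z) (b (S.y z)) - (c.1 (S.t z) : G ⧸ H → N) z) = (c.1 g : G ⧸ H → N) z
    have h3 : (f (S.t z))⁻¹ • z = (S.y z : G ⧸ H) := by rw [inv_smul_eq_iff, S.t_smul]
    have A := cocycle₁_apply N c.2.1 g (tr S z g) z
    have B := cocycle₁_apply N c.2.1 (S.t z) (comp S z g) z
    rw [t_comp, h3, A, ← hb (S.y z) ⟨_, comp_mem S z g⟩] at B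
    rw [map_sub, ← act_mul, y_inv,
      show g * S.t ((f g)⁻¹ • z) = S.t z * comp S z g from (t_comp S z g).symm, act_mul]
    simp only [map_sub] at B
    simp only [tr] at B
    linear_combination (norm := module) -B
  · choose b hb using fun x : R => Submodule.mkQ_surjective _ (w x)
    refine ⟨h1mk r' _ ⟨psi1 N S fun x => (b x).1, ?_,
      level_psi1 N S hf hH fun x => (b x).2.2⟩, funext fun x => ?_⟩
    · refine LinearMap.mem_ker.2 (funext fun gg => funext fun z => ?_)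
      obtain ⟨g, g'⟩ := gg
      rw [d_psi1]
      have hm := comp_mem S z g
      have hm' : comp S ((f g)⁻¹ • z) g' ∈ st f H (S.y z : G ⧸ H) := by
        have := comp_mem S ((f g)⁻¹ • z) g'; rwa [y_inv] at this
      have h := (mem_cocycles₁_def _).1 (b (S.y z)).2.1 ⟨_, hm⟩ ⟨_, hm'⟩
      rw [← ext1_apply N (fun x => (b x).1), ← ext1_apply N (fun x => (b x).1),
        ← ext1_apply N (fun x => (b x).1)] at h
      show _ = (0 : N)
      exact (congrArg _ h).trans (map_zero _)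
    · show h1map (r' := r'.comp (st f H x.1).subtype) r' (st f H x.1).subtype (fun _ => rfl)
        (ev N x.1) (he x.1) (h1mk r' _ _) = w x
      rw [h1map_mk, ← hb x]
      refine congrArg (h1mk _ _) (Subtype.ext (funext fun g => ?_))
      show act f N (S.t (x : G ⧸ H)) (ext1 N _ (S.y x) (comp S (x : G ⧸ H) g)) = _
      rw [S.t_rep, act_one, comp_rep, S.y_rep, ext1_apply]

theorem bijective₂ {r : G →* GQ} {r' : G' →* GQ} (hf : ∀ g, r (f g) = r' g)
    (hH : ∃ F : IntermediateField ℚ (AlgebraicClosure ℚ),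
      FiniteDimensional ℚ F ∧ F.fixingSubgroup.comap r ≤ H) {R : Set (G ⧸ H)}
    (hR : ∀ x : G ⧸ H, ∃! y : R, ∃ g : G', f g • (y : G ⧸ H) = x)
    (he : ∀ (x : G ⧸ H) (g : st f H x) (a : Rep.res f (ind H N)),
      ev N x ((Rep.res f (ind H N)).ρ ((st f H x).subtype g) a) =
        (Rep.res (f.comp (st f H x).subtype) N).ρ g (ev N x a)) :
    Function.Bijective (LinearMap.pi fun x : R =>
      continuousH2Map (rH := r') (rG := r'.comp (st f H x.1).subtype) (st f H x.1).subtype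
        (fun _ => rfl) (ev N x.1) (he x.1)) := by
  obtain ⟨S⟩ := exists_sect hR
  haveI := finite_quotient_of_open (r := r) hH
  haveI : Finite R := inferInstance
  refine ⟨?_, fun w => ?_⟩
  · refine (injective_iff_map_eq_zero _).2 fun w hw => ?_
    obtain ⟨c, rfl⟩ := Submodule.mkQ_surjective _ w
    have hx : ∀ x : R, ∃ b : st f H x.1 → N,
        IsLevelConstant₁ (r'.comp (st f H x.1).subtype) b ∧
        ∀ g g' : st f H x.1, act f N g (b g') - b (g * g') + b g =
          (c.1 ((g : G'), (g' : G')) : G ⧸ H → N) x := by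
      intro x
      have h1 := congrFun hw x
      change continuousH2Map (rH := r') (rG := r'.comp (st f H x.1).subtype) (st f H x.1).subtype
        (fun _ => rfl) (ev N x.1) (he x.1) (h2mk r' _ c) = 0 at h1
      rw [continuousH2Map_continuousH2π, continuousH2π_eq_zero_iff,
        mem_levelCoboundaries₂_iff] at h1
      obtain ⟨b, hbl, hb⟩ := h1
      exact ⟨b, hbl, fun g g' => congrFun hb (g, g')⟩
    choose b hbl hb using hx
    show h2mk r' _ c = 0
    refine (continuousH2π_eq_zero_iff _ _ _).2 ((mem_levelCoboundaries₂_iff _ _ _).2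
      ⟨hom2 N S c.1 + psi1 N S b, (level_hom2 N S hf hH c.2.2).add (level_psi1 N S hf hH hbl),
        funext fun gg => funext fun z => ?_⟩)
    obtain ⟨g, g'⟩ := gg
    rw [map_add]
    show ((d₁₂ (Rep.res f (ind H N))).hom (hom2 N S c.1) (g, g') : G ⧸ H → N) z +
      ((d₁₂ (Rep.res f (ind H N))).hom (psi1 N S b) (g, g') : G ⧸ H → N) z = _
    rw [d_hom2 N S c.2.1, d_psi1]
    have hm := comp_mem S z g
    have hm' : comp S ((f g)⁻¹ • z) g' ∈ st f H (S.y z : G ⧸ H) := by
      have := comp_mem S ((f g)⁻¹ • z) g'; rwa [y_inv] at this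
    have h := hb (S.y z) ⟨_, hm⟩ ⟨_, hm'⟩
    rw [← ext1_apply N b, ← ext1_apply N b, ← ext1_apply N b] at h
    simp only [Subgroup.coe_mul] at h
    rw [h, sub_add_cancel]
  · choose b hb using fun x : R => Submodule.mkQ_surjective _ (w x)
    refine ⟨h2mk r' _ ⟨psi2 N S fun x => (b x).1, (mem_cocycles₂_def _).2 fun g g' j =>
      funext fun z => ?_, level_psi2 N S hf hH fun x => (b x).2.2⟩, funext fun x => ?_⟩
    · have e : ∀ a : G', comp S z (a * g') = comp S z a * comp S ((f a)⁻¹ • z) g' := fun a =>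
        comp_mul S z a g'
      have hz : (f (g * g'))⁻¹ • z = (f g')⁻¹ • (f g)⁻¹ • z := by
        rw [map_mul, mul_inv_rev, mul_smul]
      show act f N g (act f N (S.t ((f g)⁻¹ • z)) (ext2 N _ (S.y ((f g)⁻¹ • z))
          (comp S ((f g)⁻¹ • z) g') (comp S ((f g')⁻¹ • (f g)⁻¹ • z) j))) -
        act f N (S.t z) (ext2 N _ (S.y z) (comp S z (g * g')) (comp S ((f (g * g'))⁻¹ • z) j)) +
        act f N (S.t z) (ext2 N _ (S.y z) (comp S z g) (comp S ((f g)⁻¹ • z) (g' * j))) -
        act f N (S.t z) (ext2 N _ (S.y z) (comp S z g) (comp S ((f g)⁻¹ • z) g')) = 0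
      rw [← act_mul, y_inv, show g * S.t ((f g)⁻¹ • z) = S.t z * comp S z g from (t_comp S z g).symm,
        act_mul, hz, e g, comp_mul S ((f g)⁻¹ • z) g' j, ← map_sub, ← map_add, ← map_sub]
      have hm := comp_mem S z g
      have hm' : comp S ((f g)⁻¹ • z) g' ∈ st f H (S.y z : G ⧸ H) := by
        have := comp_mem S ((f g)⁻¹ • z) g'; rwa [y_inv] at this
      have hm'' : comp S ((f g')⁻¹ • (f g)⁻¹ • z) j ∈ st f H (S.y z : G ⧸ H) := by
        have := comp_mem S ((f g')⁻¹ • (f g)⁻¹ • z) j; rwa [y_inv, y_inv] at this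
      have h := (mem_cocycles₂_def _).1 (b (S.y z)).2.1 ⟨_, hm⟩ ⟨_, hm'⟩ ⟨_, hm''⟩
      rw [← ext2_apply N (fun x => (b x).1), ← ext2_apply N (fun x => (b x).1),
        ← ext2_apply N (fun x => (b x).1), ← ext2_apply N (fun x => (b x).1)] at h
      exact (congrArg _ h).trans (map_zero _)
    · show continuousH2Map (rH := r') (rG := r'.comp (st f H x.1).subtype) (st f H x.1).subtype
        (fun _ => rfl) (ev N x.1) (he x.1) (h2mk r' _ _) = w x
      rw [continuousH2Map_continuousH2π, ← hb x]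
      refine congrArg (h2mk _ _) (Subtype.ext (funext fun gg => ?_))
      obtain ⟨g, g'⟩ := gg
      have hg : (f (g : G'))⁻¹ • (x : G ⧸ H) = x := by
        rw [inv_smul_eq_iff]; exact (MulAction.mem_stabilizer_iff.1 g.2).symm
      show act f N (S.t (x : G ⧸ H))
        (ext2 N _ (S.y x) (comp S (x : G ⧸ H) g) (comp S ((f (g : G'))⁻¹ • (x : G ⧸ H)) g')) = _
      rw [hg, S.t_rep, act_one, comp_rep, comp_rep, S.y_rep, ext2_apply]

end FLTAgent.PT.Shap

end
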