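import Fermat.Agent.PT.Tool.Basic

/-!
Parcel B: what Hilbert 90 gives; classes killed by the kernel of a character of order `p` are
symbols.
-/

set_option autoImplicit false
set_option linter.style.haveILetI false
set_option linter.unusedSectionVars false

noncomputable section

open CategoryTheory groupCohomology

namespace FLTAgent.PT

variable {p : ℕ} [Fact p.Prime] {G : Type} [Group G] {r : G →* GQ}

/-- what Hilbert 90 gives: `𝔽_p` as the `p`-torsion of a divisible module without `H¹` -/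
structure KummerCtx (p : ℕ) (r : G →* GQ) where
  X : Type
  [inst : AddCommGroup X]
  act : G →* AddMonoid.End X
  ι : ZMod p →+ X
  ι_inj : Function.Injective ι
  fix : ∀ g a, act g (ι a) = ι a
  ker_p : ∀ x : X, p • x = 0 → ∃ a, ι a = x
  divisible : ∀ x : X, ∃ y, p • y = x
  smooth : ∀ x : X, ∃ F : IntermediateField ℚ (AlgebraicClosure ℚ), FiniteDimensional ℚ F ∧
    ∀ g, r g ∈ F.fixingSubgroup → act g x = x
  h90 : ∀ U : Subgroup G,
    (∃ F : IntermediateField ℚ (AlgebraicClosure ℚ), FiniteDimensional ℚ F ∧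
      F.fixingSubgroup.comap r ≤ U) → ∀ c : U → X,
    (∀ u v, c (u * v) = act u.1 (c v) + c u) →
    (∃ F : IntermediateField ℚ (AlgebraicClosure ℚ), FiniteDimensional ℚ F ∧
      ∀ u s : U, r s.1 ∈ F.fixingSubgroup → c (u * s) = c u) →
    ∃ x, ∀ u : U, c u = act u.1 x - x

attribute [instance] KummerCtx.inst

namespace KummerCtx

variable (K : KummerCtx p r)

theorem act_mul' (g h : G) (x : K.X) : K.act (g * h) x = K.act g (K.act h x) := by
  rw [map_mul]; rfl

theorem act_one' (x : K.X) : K.act 1 x = x := by rw [map_one]; rfl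

theorem act_ι_nsmul (g : G) (a : ZMod p) (x : K.X) : K.act g (K.ι a + x) = K.ι a + K.act g x := by
  rw [map_add, K.fix]

/-- the coboundary in `X` -/
def dX (u : G → K.X) (g h : G) : K.X := K.act g (u h) - u (g * h) + u g

theorem dX_add (u v : G → K.X) (g h : G) : K.dX (u + v) g h = K.dX u g h + K.dX v g h := by
  simp only [dX, Pi.add_apply, map_add]; abel

theorem dX_cocycle (u : G → K.X) (g h j : G) :
    K.dX u (g * h) j + K.dX u g h = K.act g (K.dX u h j) + K.dX u g (h * j) := by
  simp only [dX, map_add, map_sub, mul_assoc g h j, K.act_mul']; abel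

/-- one level fixes a level constant cochain's values -/
theorem exists_level_fix {u : G → K.X} (hu : IsLevelConstant₁ r u) :
    ∃ E : IntermediateField ℚ (AlgebraicClosure ℚ), FiniteDimensional ℚ E ∧ (lev r E).Normal ∧
      (∀ s ∈ lev r E, ∀ g, K.act s (u g) = u g) ∧ ∀ g, ∀ s ∈ lev r E, u (g * s) = u g := by
  obtain ⟨F, hF, hlev⟩ := hu
  haveI := hF
  haveI := finiteIndex_lev (r := r) F
  choose F' hF' hfix using fun q : G ⧸ lev r F => K.smooth (u q.out)
  haveI := hF'
  haveI : FiniteDimensional ℚ (⨆ q, F' q : IntermediateField ℚ (AlgebraicClosure ℚ)) :=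
    IntermediateField.finiteDimensional_iSup_of_finite
  obtain ⟨E, hE, hle, hn⟩ := exists_normal_lev r (F ⊔ ⨆ q, F' q)
  refine ⟨E, hE, hn, fun s hs g => ?_, fun g s hs => hlev g s (lev_anti le_sup_left (hle hs))⟩
  obtain ⟨t, ht⟩ := QuotientGroup.mk_out_eq_mul (lev r F) g
  have h1 : u (g : G ⧸ lev r F).out = u g := by rw [ht]; exact hlev g t t.2
  have h2 : s ∈ lev r (F' (g : G ⧸ lev r F)) :=
    lev_anti ((le_iSup F' _).trans le_sup_right) (hle hs)
  rw [← h1]
  exact hfix _ s h2

theorem level_dX {u : G → K.X} (hu : IsLevelConstant₁ r u) :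
    IsLevelConstant₂ r fun g : G × G => K.dX u g.1 g.2 := by
  obtain ⟨E, hE, hn, hfix, hlev⟩ := K.exists_level_fix hu
  refine ⟨E, hE, fun g g' s s' hs hs' => ?_⟩
  have hc : g'⁻¹ * s * g' * s' ∈ lev r E :=
    mul_mem (by simpa using hn.conj_mem s hs g'⁻¹) hs'
  show K.act (g * s) (u (g' * s')) - u (g * s * (g' * s')) + u (g * s) = _
  rw [show g * s * (g' * s') = g * g' * (g'⁻¹ * s * g' * s') by group, hlev _ _ hs', hlev _ _ hs,
    hlev _ _ hc, K.act_mul', hfix s hs]
  rfl

theorem level_bdry (z : K.X) : IsLevelConstant₁ r fun g => K.act g z - z := by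
  obtain ⟨F, hF, h⟩ := K.smooth z
  exact ⟨F, hF, fun g s hs => by
    show K.act (g * s) z - z = K.act g z - z
    rw [K.act_mul', h s hs]⟩

/-- `H²(𝔽_p) → H²(X)` is injective -/
theorem exists_bdry {f : G × G → ZMod p} {u : G → K.X} (hl : IsLevelConstant₁ r u)
    (hf : ∀ g h, K.ι (f (g, h)) = K.dX u g h) :
    ∃ b : G → ZMod p, IsLevelConstant₁ r b ∧ ∀ g h, f (g, h) = b h - b (g * h) + b g := by
  have hp0 : ∀ a : ZMod p, p • K.ι a = 0 := fun a => by
    rw [← map_nsmul, nsmul_eq_mul, ZMod.natCast_self, zero_mul, map_zero]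
  obtain ⟨F, hF, hlev⟩ := hl
  obtain ⟨y, hy⟩ := K.h90 ⊤ ⟨⊥, inferInstance, le_top⟩ (fun g => p • u g.1) (fun g h => by
    have h1 := congrArg (p • ·) (hf g.1 h.1)
    simp only [hp0, dX, nsmul_add, nsmul_sub] at h1
    show p • u (g.1 * h.1) = K.act g.1 (p • u h.1) + p • u g.1
    rw [map_nsmul]
    linear_combination (norm := module) h1) ⟨F, hF, fun g s hs => by
    show p • u (g.1 * s.1) = p • u g.1
    rw [hlev g.1 s.1 hs]⟩
  obtain ⟨z, rfl⟩ := K.divisible y
  set u' : G → K.X := fun g => u g - (K.act g z - z) with hu'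
  have hker : ∀ g, p • u' g = 0 := fun g => by
    have h1 : p • u g = K.act g (p • z) - p • z := hy ⟨g, trivial⟩
    rw [hu', nsmul_sub, nsmul_sub, h1, map_nsmul, sub_self]
  have hb : ∀ g, K.ι (Function.invFun K.ι (u' g)) = u' g := fun g =>
    Function.invFun_eq (K.ker_p _ (hker g))
  refine ⟨fun g => Function.invFun K.ι (u' g), ?_, fun g h => K.ι_inj ?_⟩
  · obtain ⟨F', hF', hlev'⟩ := K.level_bdry z
    haveI := hF; haveI := hF'
    refine ⟨F ⊔ F', inferInstance, fun g s hs => congrArg _ ?_⟩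
    show u (g * s) - (K.act (g * s) z - z) = u g - (K.act g z - z)
    rw [hlev g s (IntermediateField.fixingSubgroup_antitone le_sup_left hs),
      show K.act (g * s) z - z = K.act g z - z from
        hlev' g s (IntermediateField.fixingSubgroup_antitone le_sup_right hs)]
  · have hfx : K.act g (u' h) = u' h := by rw [← hb h, K.fix]
    rw [map_add, map_sub, hb, hb, hb, hf, ← hfx]
    simp only [hu', dX, map_sub, K.act_mul']
    abel

section Symbol

variable {c : G → ZMod p} (hc : ∀ g h, c (g * h) = c g + c h)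
include hc

theorem hom_one : c 1 = 0 := by
  have := hc 1 1
  rwa [one_mul, left_eq_add] at this

theorem hom_inv (g : G) : c g⁻¹ = -c g := by
  refine eq_neg_of_add_eq_zero_left ?_
  rw [← hc, inv_mul_cancel, hom_one hc]

theorem hom_pow (g : G) (i : ℕ) : c (g ^ i) = i * c g := by
  induction i with
  | zero => rw [pow_zero, hom_one hc]; simp
  | succ i ih => rw [pow_succ, hc, ih]; push_cast; ring

/-- a two-cocycle split on the kernel of a character is a carry cocycle -/
theorem exists_carry (hcl : IsLevelConstant₁ r c) {σ : G} (hσ : c σ = 1) (f : G → G → K.X)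
    (hf : ∀ g h j, f (g * h) j + f g h = K.act g (f h j) + f g (h * j))
    (hfl : IsLevelConstant₂ r fun g : G × G => f g.1 g.2) {u : G → K.X}
    (hul : IsLevelConstant₁ r u)
    (hu : ∀ l l', c l = 0 → c l' = 0 → f l l' = K.dX u l l') :
    ∃ (x : K.X) (W : G → K.X), (∀ g, K.act g x = x) ∧ IsLevelConstant₁ r W ∧
      ∀ g h, f g h = K.dX W g h + (((c g).val + (c h).val) / p) • x := by
  set e : G → ℕ := fun g => (c g).val with he
  set lp : G → G := fun g => (σ ^ e g)⁻¹ * g with hlp
  have hlp0 : ∀ g, c (lp g) = 0 := fun g => by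
    rw [hlp, he, hc, hom_inv hc, hom_pow hc, hσ, mul_one, ZMod.natCast_rightInverse,
      neg_add_cancel]
  have hdec : ∀ g, σ ^ e g * lp g = g := fun g => mul_inv_cancel_left _ _
  have hsplit : ∀ g l, c l = 0 → e (g * l) = e g ∧ lp (g * l) = lp g * l := fun g l hl => by
    have h1 : e (g * l) = e g := by simp only [he, hc, hl, add_zero]
    exact ⟨h1, by simp only [hlp, h1, mul_assoc]⟩
  have hconj : ∀ g l, c l = 0 → c (g⁻¹ * l * g) = 0 := fun g l hl => by
    rw [hc, hc, hom_inv hc, hl]; ring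
  have hc1 := hom_one hc
  have h11 : u 1 = f 1 1 := by
    rw [hu 1 1 hc1 hc1, dX, K.act_one', mul_one]; abel
  have hf1 : ∀ g, f g 1 = K.act g (f 1 1) := fun g => by
    have h := hf g 1 1
    rw [mul_one, mul_one] at h
    exact add_right_cancel h
  have hf1' : ∀ g, f 1 g = f 1 1 := fun g => by
    have h := hf 1 1 g
    rw [mul_one, one_mul, K.act_one'] at h
    exact (add_left_cancel h).symm
  -- first make the values `f g l` vanish
  set U : G → K.X := fun g =>
    K.act (σ ^ e g) (u (lp g)) + K.act (σ ^ e g) (f 1 1) - f (σ ^ e g) (lp g) with hU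
  have hUl : ∀ l, c l = 0 → U l = u l := fun l hl => by
    have h0 : e l = 0 := by simp only [he, hl, ZMod.val_zero]
    have h1 : lp l = l := by simp only [hlp, h0, pow_zero, inv_one, one_mul]
    simp only [hU, h0, h1, pow_zero, K.act_one']
    rw [hf1' l, add_sub_cancel_right]
  have hUl' : IsLevelConstant₁ r U := by
    obtain ⟨F₁, hF₁, h₁⟩ := hul
    obtain ⟨F₂, hF₂, h₂⟩ := hfl
    obtain ⟨F₃, hF₃, h₃⟩ := hcl
    haveI := hF₁; haveI := hF₂; haveI := hF₃
    refine ⟨F₁ ⊔ F₂ ⊔ F₃, inferInstance, fun g s hs => ?_⟩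
    have hs' : s ∈ lev r (F₁ ⊔ F₂ ⊔ F₃) := hs
    have hc0 : c s = 0 := by
      have h := h₃ 1 s (lev_anti le_sup_right hs')
      rwa [one_mul, hc1] at h
    obtain ⟨h1, h2⟩ := hsplit g s hc0
    have e1 := h₁ (lp g) s (lev_anti (le_sup_left.trans le_sup_left) hs')
    have e2 := h₂ (σ ^ e g) (lp g) 1 s (one_mem (lev r F₂))
      (lev_anti (le_sup_right.trans le_sup_left) hs')
    simp only [mul_one] at e2
    simp only [hU, h1, h2, e1, e2]
  set f₁ : G → G → K.X := fun g h => f g h - K.dX U g h with hf₁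
  have hf₁c : ∀ g h j, f₁ (g * h) j + f₁ g h = K.act g (f₁ h j) + f₁ g (h * j) := fun g h j => by
    simp only [hf₁, map_sub]
    rw [sub_add_sub_comm, sub_add_sub_comm, hf g h j, K.dX_cocycle]
  have hLL : ∀ l l', c l = 0 → c l' = 0 → f₁ l l' = 0 := fun l l' hl hl' => by
    have h2 : c (l * l') = 0 := by rw [hc, hl, hl', add_zero]
    simp only [hf₁, dX, hUl l hl, hUl l' hl', hUl _ h2]
    rw [hu l l' hl hl', dX, sub_self]
  have hsl : ∀ g l, c l = 0 → f₁ g l = 0 := fun g l hl => by
    have hs : ∀ g', f₁ (σ ^ e g') (lp g') = 0 := fun g' => by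
      have h0 : e (σ ^ e g') = e g' := by
        simp only [he, hom_pow hc, hσ, mul_one, ZMod.natCast_rightInverse (c g')]
      have h1 : lp (σ ^ e g') = 1 := by simp only [hlp, h0, inv_mul_cancel]
      simp only [hf₁, dX, hdec g', hUl _ (hlp0 g')]
      simp only [hU, h0, h1]
      rw [h11, hf1 (σ ^ e g')]
      abel
    have h := hf₁c (σ ^ e g) (lp g) l
    obtain ⟨h1, h2⟩ := hsplit g l hl
    rw [hdec, hs g, add_zero, hLL _ _ (hlp0 g) hl, map_zero, zero_add] at h
    rw [h, ← h1, ← h2, hs]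
  have hr : ∀ g h l, c l = 0 → f₁ g (h * l) = f₁ g h := fun g h l hl => by
    have h' := hf₁c g h l
    rw [hsl (g * h) l hl, hsl h l hl, map_zero, zero_add, zero_add] at h'
    exact h'.symm
  have hlr : ∀ l l' g, c l = 0 → c l' = 0 →
      f₁ (l * l') g = K.act l (f₁ l' g) + f₁ l g := fun l l' g hl hl' => by
    have h := hf₁c l l' g
    rw [hLL l l' hl hl', add_zero] at h
    rw [h, show l' * g = g * (g⁻¹ * l' * g) by group, hr l g _ (hconj g l' hl')]
  -- then the values `f l g`
  obtain ⟨E₁, hE₁, hlev₁⟩ : IsLevelConstant₂ r fun g : G × G => f₁ g.1 g.2 :=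
    hfl.add ((K.level_dX hUl').comp fun x => -x) |> fun h => by
      convert h using 1
      funext g; simp [hf₁, sub_eq_add_neg]
  let L : Subgroup G :=
    { carrier := {g | c g = 0}
      one_mem' := hc1
      mul_mem' := fun {a b} ha hb => by
        simp only [Set.mem_ofPred_eq] at *; rw [hc, ha, hb, add_zero]
      inv_mem' := fun {a} ha => by
        simp only [Set.mem_ofPred_eq] at *; rw [hom_inv hc, ha, neg_zero] }
  have hLopen : ∃ F : IntermediateField ℚ (AlgebraicClosure ℚ), FiniteDimensional ℚ F ∧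
      F.fixingSubgroup.comap r ≤ L := by
    obtain ⟨F, hF, h⟩ := hcl
    exact ⟨F, hF, fun s hs => by
      have := h 1 s hs
      rwa [one_mul, hc1] at this⟩
  have hY : ∀ g, ∃ y : K.X, ∀ l : L, f₁ (l : G) g = K.act l y - y := fun g =>
    K.h90 L hLopen (fun l => f₁ (l : G) g) (fun l l' => hlr l l' g l.2 l'.2)
      ⟨E₁, hE₁, fun l s hs => by
        have := hlev₁ (l : G) g s 1 hs (one_mem (lev r E₁))
        rwa [mul_one] at this⟩
  choose Y hY using hY
  set V : G → K.X := fun g => if c g = 0 then 0 else Y (σ ^ e g) with hV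
  have hVc : ∀ g g', c g = c g' → V g = V g' := fun g g' h => by simp only [hV, he, h]
  have hVl : IsLevelConstant₁ r V := by
    obtain ⟨F, hF, h⟩ := hcl
    exact ⟨F, hF, fun g s hs => hVc _ _ (h g s hs)⟩
  have hV1 : ∀ l, c l = 0 → V l = 0 := fun l hl => by simp only [hV, hl, if_true]
  have hlV : ∀ l g, c l = 0 → f₁ l g = K.act l (V g) - V g := fun l g hl => by
    simp only [hV]
    split_ifs with hg
    · rw [map_zero, sub_zero, hLL l g hl hg]
    · rw [← hY (σ ^ e g) ⟨l, hl⟩]
      conv_lhs => rw [← hdec g, hr l _ _ (hlp0 g)]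
  set f₂ : G → G → K.X := fun g h => f₁ g h - K.dX V g h with hf₂
  have hc₂ : ∀ g h j, f₂ (g * h) j + f₂ g h = K.act g (f₂ h j) + f₂ g (h * j) := fun g h j => by
    show f₁ (g * h) j - K.dX V (g * h) j + (f₁ g h - K.dX V g h) =
      K.act g (f₁ h j - K.dX V h j) + (f₁ g (h * j) - K.dX V g (h * j))
    rw [map_sub]
    linear_combination (norm := module) hf₁c g h j - K.dX_cocycle V g h j
  have hgl : ∀ g l, c l = 0 → f₂ g l = 0 := fun g l hl => by
    simp only [hf₂, dX, hV1 l hl, hVc (g * l) g (by rw [hc, hl, add_zero]), map_zero, hsl g l hl]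
    abel
  have hlg : ∀ l g, c l = 0 → f₂ l g = 0 := fun l g hl => by
    simp only [hf₂, dX, hV1 l hl, hVc (l * g) g (by rw [hc, hl, zero_add]), hlV l g hl]
    abel
  have hr₂ : ∀ g h l, c l = 0 → f₂ g (h * l) = f₂ g h := fun g h l hl => by
    have h' := hc₂ g h l
    rw [hgl (g * h) l hl, hgl h l hl, map_zero, zero_add, zero_add] at h'
    exact h'.symm
  have hl₂ : ∀ g l h, c l = 0 → f₂ (g * l) h = f₂ g h := fun g l h hl => by
    have h' := hc₂ g l h
    rw [hgl g l hl, hlg l h hl, map_zero, zero_add, add_zero] at h'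
    rw [h', show l * h = h * (h⁻¹ * l * h) by group, hr₂ g h _ (hconj h l hl)]
  have hfix₂ : ∀ l g h, c l = 0 → K.act l (f₂ g h) = f₂ g h := fun l g h hl => by
    have h' := hc₂ l g h
    rw [hlg l g hl, hlg l (g * h) hl, add_zero, add_zero,
      show l * g = g * (g⁻¹ * l * g) by group, hl₂ g _ h (hconj g l hl)] at h'
    exact h'.symm
  -- the cyclic cocycle
  set a : ℕ → K.X := fun j => f₂ (σ ^ j) σ with ha
  set β : ℕ → K.X := fun i => f₂ 1 1 - ∑ j ∈ Finset.range i, a j with hβ
  set x : K.X := ∑ j ∈ Finset.range p, a j with hx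
  have hσp : c (σ ^ p) = 0 := by rw [hom_pow hc, hσ, mul_one, ZMod.natCast_self]
  have hb : ∀ j, β (j + 1) = β j - a j := fun j => by
    simp only [hβ, Finset.sum_range_succ]; abel
  have key : ∀ i k, K.act (σ ^ i) (β k) - β (i + k) + β i = f₂ (σ ^ i) (σ ^ k) := by
    intro i k
    induction k with
    | zero =>
      rw [add_zero, pow_zero, show β 0 = f₂ 1 1 by simp [hβ], sub_add_cancel]
      have h := hc₂ (σ ^ i) 1 1
      rw [mul_one, mul_one] at h
      exact (add_right_cancel h).symm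
    | succ k ih =>
      have h := hc₂ (σ ^ i) (σ ^ k) σ
      rw [← pow_succ, ← pow_add] at h
      rw [← add_assoc, hb, hb, map_sub]
      have e : f₂ (σ ^ i) (σ ^ (k + 1)) =
          f₂ (σ ^ (i + k)) σ + f₂ (σ ^ i) (σ ^ k) - K.act (σ ^ i) (f₂ (σ ^ k) σ) := by
        rw [h, add_sub_cancel_left]
      rw [e, ← ih]
      simp only [ha]
      abel
  have hper : ∀ i, β (i + p) = β i - x := fun i => by
    induction i with
    | zero => simp [hβ, hx]
    | succ i ih =>
      rw [show i + 1 + p = (i + p) + 1 by omega, hb, hb, ih,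
        show a (i + p) = a i by simp only [ha, pow_add]; exact hl₂ _ _ _ hσp]
      abel
  have hxσ : K.act σ x = x := by
    have h0 := key 1 0
    have hp' := key 1 p
    rw [pow_one] at h0 hp'
    rw [hper 1, show β p = β 0 - x by simpa using hper 0, map_sub] at hp'
    rw [show f₂ σ (σ ^ p) = f₂ σ (σ ^ 0) by
      rw [pow_zero, show σ ^ p = 1 * σ ^ p from (one_mul _).symm, hr₂ σ 1 _ hσp], ← h0,
      add_zero] at hp'
    rw [← sub_eq_zero] at hp' ⊢
    rw [← neg_eq_zero, ← hp']
    abel
  have hxfix : ∀ g, K.act g x = x := fun g => by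
    have hl : K.act (lp g) x = x := by
      rw [hx, map_sum]
      exact Finset.sum_congr rfl fun j _ => hfix₂ _ _ _ (hlp0 g)
    rw [← hdec g, K.act_mul', hl]
    induction e g with
    | zero => rw [pow_zero, K.act_one']
    | succ n ih => rw [pow_succ, K.act_mul', hxσ, ih]
  have hβfix : ∀ l i, c l = 0 → K.act l (β i) = β i := fun l i hl => by
    simp only [hβ, map_sub, map_sum, hfix₂ _ _ _ hl, ha]
  set w : G → K.X := fun g => β (e g) with hw
  have hwl : IsLevelConstant₁ r w := by
    obtain ⟨F, hF, h⟩ := hcl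
    exact ⟨F, hF, fun g s hs => by simp only [hw, he, h g s hs]⟩
  refine ⟨x, U + V + w, hxfix, (hUl'.add hVl).add hwl, fun g h => ?_⟩
  have hcar : e g + e h = e (g * h) + p * ((e g + e h) / p) := by
    conv_lhs => rw [← Nat.mod_add_div (e g + e h) p]
    simp only [he, hc, ZMod.val_add]
  have hperq : ∀ q i, β (i + p * q) = β i - q • x := fun q i => by
    induction q with
    | zero => simp
    | succ q ih => rw [Nat.mul_succ, ← add_assoc, hper, ih, succ_nsmul]; abel
  have h2 : f₂ g h = f₂ (σ ^ e g) (σ ^ e h) := by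
    conv_lhs => rw [← hdec g, ← hdec h]
    rw [hl₂ _ _ _ (hlp0 g), hr₂ _ _ _ (hlp0 h)]
  have h3 : K.act g (w h) = K.act (σ ^ e g) (β (e h)) := by
    conv_lhs => rw [← hdec g]
    rw [K.act_mul', hw, hβfix _ _ (hlp0 g)]
  have hcar2 : β (e g + e h) = β (e (g * h)) - ((e g + e h) / p) • x := by
    conv_lhs => rw [hcar]
    exact hperq _ _
  rw [K.dX_add, K.dX_add, show f g h = f₂ g h + K.dX V g h + K.dX U g h by
    simp only [hf₂, hf₁]; abel, h2, ← key, show K.dX w g h = K.act g (w h) - w (g * h) + w g from rfl,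
    h3, hcar2]
  simp only [hw, he]
  abel

include K in
/-- a class split on the kernel of a character of order `p` is a symbol -/
theorem exists_symbol_cochain (hcl : IsLevelConstant₁ r c) {σ : G} (hσ : c σ = 1)
    {f : G × G → ZMod p}
    (hf : ∀ g h j, f (g * h, j) + f (g, h) = f (h, j) + f (g, h * j))
    (hfl : IsLevelConstant₂ r f) {u : G → ZMod p} (hul : IsLevelConstant₁ r u)
    (hu : ∀ l l', c l = 0 → c l' = 0 → f (l, l') = u l' - u (l * l') + u l) :
    ∃ a b : G → ZMod p, IsLevelConstant₁ r a ∧ (∀ g h, a (g * h) = a h + a g) ∧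
      IsLevelConstant₁ r b ∧ ∀ g h, f (g, h) = c g * a h + (b h - b (g * h) + b g) := by
  obtain ⟨x, W, hxfix, hWl, hW⟩ := K.exists_carry hc hcl hσ (fun g h => K.ι (f (g, h)))
    (fun g h j => by rw [K.fix, ← map_add, ← map_add, hf]) (hfl.comp K.ι)
    (u := fun g => K.ι (u g)) (hul.comp K.ι) (fun l l' hl hl' => by
      rw [hu l l' hl hl', dX, K.fix, map_add, map_sub])
  obtain ⟨z, rfl⟩ := K.divisible x
  have hker : ∀ g, p • (K.act g z - z) = 0 := fun g => by
    rw [nsmul_sub, ← map_nsmul, hxfix, sub_self]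
  set a : G → ZMod p := fun g => Function.invFun K.ι (K.act g z - z) with ha
  have haι : ∀ g, K.ι (a g) = K.act g z - z := fun g => Function.invFun_eq (K.ker_p _ (hker g))
  have hal : IsLevelConstant₁ r a := (K.level_bdry z).comp (Function.invFun K.ι)
  have hac : ∀ g h, a (g * h) = a h + a g := fun g h => K.ι_inj (by
    have h1 : K.act g (K.act h z) = K.ι (a h) + K.act g z := by
      rw [show K.act h z = K.ι (a h) + z by rw [haι]; abel, map_add, K.fix]
    rw [map_add, haι (g * h), haι g, K.act_mul', h1]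
    abel)
  set Ω : G → K.X := fun g => (c g).val • z with hΩ
  have hΩl : IsLevelConstant₁ r Ω := hcl.comp fun t : ZMod p => t.val • z
  have hdΩ : ∀ g h, K.dX Ω g h =
      K.ι (a g * c h) + (((c g).val + (c h).val) / p) • (p • z) := fun g h => by
    have hcar : (c g).val + (c h).val =
        (c (g * h)).val + p * (((c g).val + (c h).val) / p) := by
      conv_lhs => rw [← Nat.mod_add_div ((c g).val + (c h).val) p]
      rw [hc, ZMod.val_add]
    have hm : K.ι (a g * c h) = (c h).val • (K.act g z - z) := by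
      rw [← haι, ← map_nsmul, nsmul_eq_mul, ZMod.natCast_rightInverse, mul_comm]
    have h1 := congrArg (· • z) hcar
    simp only [add_nsmul, mul_nsmul'] at h1
    rw [hm, smul_comm _ p z]
    simp only [dX, hΩ, map_nsmul, nsmul_sub]
    linear_combination (norm := module) h1
  obtain ⟨b, hbl, hb⟩ := K.exists_bdry (f := fun g => f g + a g.1 * c g.2) (u := W + Ω)
    (hWl.add hΩl) (fun g h => by
      show K.ι (f (g, h) + a g * c h) = _
      rw [map_add, K.dX_add, hdΩ, hW]
      abel)
  refine ⟨a, fun g => b g + a g * c g, hal, hac, ?_, fun g h => ?_⟩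
  · obtain ⟨F, hF, h1⟩ := hal
    obtain ⟨F', hF', h2⟩ := hcl
    obtain ⟨F'', hF'', h3⟩ := hbl
    haveI := hF; haveI := hF'; haveI := hF''
    refine ⟨F ⊔ F' ⊔ F'', inferInstance, fun g s hs => ?_⟩
    have hs' : s ∈ lev r (F ⊔ F' ⊔ F'') := hs
    show b (g * s) + a (g * s) * c (g * s) = b g + a g * c g
    rw [h1 g s (lev_anti (le_sup_left.trans le_sup_left) hs'),
      h2 g s (lev_anti (le_sup_right.trans le_sup_left) hs'), h3 g s (lev_anti le_sup_right hs')]
  · have h1 := hb g h
    simp only [hac, hc]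
    linear_combination h1

end Symbol

end KummerCtx

end FLTAgent.PT

end
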