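import Fermat.Agent.PT.Tool.Symbol

/-!
Parcel B: Hilbert 90 for `ℚ̄ˣ` and the resulting Kummer context of a group fixing `ζ_p`.
-/

set_option autoImplicit false
set_option linter.style.haveILetI false

noncomputable section

open groupCohomology

namespace FLTAgent.PT

local notation "Qb" => AlgebraicClosure ℚ

variable {G : Type} [Group G] {r : G →* GQ}

theorem actQ_mul (r : G →* GQ) (g h : G) (x : Qb) : r (g * h) x = r g (r h x) := by
  rw [map_mul]; rfl

/-- Hilbert 90 -/
theorem hilbert90_qbar {u : G → Qb} (h0 : ∀ g, u g ≠ 0) (hu : ∀ g h, u (g * h) = u g * r g (u h))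
    (hl : IsLevelConstant₁ r u) : ∃ y : Qb, y ≠ 0 ∧ ∀ g, r g y = u g * y := by
  classical
  obtain ⟨F, hF, hlev⟩ := hl
  haveI := hF
  haveI := finiteIndex_lev (r := r) F
  letI := Fintype.ofFinite (G ⧸ lev r F)
  let χ : G ⧸ lev r F → (↥F →* Qb) := fun q =>
    (((r q.out : GQ) : Qb →ₐ[ℚ] Qb).comp F.val : F →* Qb)
  have hχ : ∀ (q : G ⧸ lev r F) (g : G), (g : G ⧸ lev r F) = q → ∀ x : F,
      r g (x : Qb) = χ q x ∧ u g = u q.out := by
    intro q g hg x
    have hs : q.out⁻¹ * g ∈ lev r F := QuotientGroup.eq.mp (q.out_eq'.trans hg.symm)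
    refine ⟨?_, ?_⟩
    · show r g (x : Qb) = r q.out (x : Qb)
      conv_lhs => rw [← mul_inv_cancel_left q.out g]
      rw [actQ_mul, (IntermediateField.mem_fixingSubgroup_iff _ _).mp hs x x.2]
    · conv_lhs => rw [← mul_inv_cancel_left q.out g]
      exact hlev _ _ hs
  have hinj : Function.Injective χ := fun q q' h => by
    rw [← q.out_eq', ← q'.out_eq', QuotientGroup.eq, Subgroup.mem_comap,
      IntermediateField.mem_fixingSubgroup_iff]
    intro x hx
    have h' : r q.out x = r q'.out x := DFunLike.congr_fun h ⟨x, hx⟩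
    rw [map_mul, map_inv, AlgEquiv.mul_apply, ← h']
    exact (r q.out).symm_apply_apply x
  have hli := (linearIndependent_monoidHom (↥F) Qb).comp χ hinj
  obtain ⟨z, hz⟩ : ∃ z : F, (∑ q : G ⧸ lev r F, u q.out * χ q z) ≠ 0 := by
    by_contra hall
    push Not at hall
    have := Fintype.linearIndependent_iff.mp hli (fun q => u q.out) (funext fun z => by
      simpa [Finset.sum_apply] using hall z)
    exact h0 _ (this ((1 : G) : G ⧸ lev r F))
  refine ⟨(∑ q : G ⧸ lev r F, u q.out * χ q z)⁻¹, inv_ne_zero hz, fun g => ?_⟩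
  have key : r g (∑ q : G ⧸ lev r F, u q.out * χ q z) =
      (u g)⁻¹ * ∑ q : G ⧸ lev r F, u q.out * χ q z := by
    rw [map_sum, Finset.mul_sum]
    refine Fintype.sum_equiv (MulAction.toPerm g) _ _ fun q => ?_
    have hq : ((g * q.out : G) : G ⧸ lev r F) = g • q := by
      conv_rhs => rw [← q.out_eq']
      rfl
    rw [map_mul, MulAction.toPerm_apply, ← (hχ _ _ hq z).1, ← (hχ _ _ hq z).2, hu, actQ_mul]
    rw [show χ q z = r q.out (z : Qb) from rfl]
    field_simp [h0 g]
  rw [map_inv₀, key, mul_inv, inv_inv]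

variable (p : ℕ) [Fact p.Prime]

/-- the action on `ℚ̄ˣ`, written additively -/
def unitsAct (r : G →* GQ) : G →* AddMonoid.End (Additive Qbˣ) where
  toFun g := MonoidHom.toAdditive (Units.map ((r g : GQ) : Qb →* Qb))
  map_one' := AddMonoidHom.ext fun x => Additive.toMul.injective (Units.ext (by
    show r 1 ((Additive.toMul x : Qbˣ) : Qb) = _
    rw [map_one]; rfl))
  map_mul' g h := AddMonoidHom.ext fun x => Additive.toMul.injective (Units.ext (by
    show r (g * h) ((Additive.toMul x : Qbˣ) : Qb) = _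
    rw [actQ_mul]; rfl))

theorem unitsAct_apply (g : G) (x : Additive Qbˣ) :
    ((Additive.toMul (unitsAct r g x) : Qbˣ) : Qb) = r g ((Additive.toMul x : Qbˣ) : Qb) := rfl

/-- the Kummer context of a group fixing the roots of unity of order `p` -/
def kummerUnits (r : G →* GQ) (ζ : Qb) (hζ : IsPrimitiveRoot ζ p) (hfix : ∀ g, r g ζ = ζ) :
    KummerCtx p r :=
  haveI : NeZero p := ⟨(Fact.out : p.Prime).ne_zero⟩
  let z : Qbˣ := (hζ.isUnit (Fact.out : p.Prime).ne_zero).unit
  have hz : IsPrimitiveRoot z p := IsPrimitiveRoot.coe_units_iff.mp hζ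
  have hp0 : p • Additive.ofMul z = 0 := Additive.toMul.injective hz.pow_eq_one
  let ι : ZMod p →+ Additive Qbˣ :=
    ZMod.lift p ⟨(zmultiplesHom (Additive Qbˣ)) (Additive.ofMul z), by
      rw [zmultiplesHom_apply, natCast_zsmul, hp0]⟩
  have hι : ∀ a : ZMod p, ι a = a.val • Additive.ofMul z := fun a => by
    have h : ι (((a.val : ℤ)) : ZMod p) = (a.val : ℤ) • Additive.ofMul z := ZMod.lift_coe p _ _
    rw [Int.cast_natCast, ZMod.natCast_zmod_val, natCast_zsmul] at h
    exact h
  { X := Additive Qbˣ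
    act := unitsAct r
    ι := ι
    ι_inj := fun a b h => by
      rw [hι, hι] at h
      exact ZMod.val_injective p (hz.pow_inj (ZMod.val_lt a) (ZMod.val_lt b)
        (congrArg Additive.toMul h))
    fix := fun g a => by
      refine Additive.toMul.injective (Units.ext ?_)
      rw [hι, unitsAct_apply, toMul_nsmul, toMul_ofMul, Units.val_pow_eq_pow_val, map_pow]
      exact congrArg (· ^ a.val) (hfix g)
    ker_p := fun x hx => by
      obtain ⟨i, -, hi⟩ := hζ.eq_pow_of_pow_eq_one
        (ξ := ((Additive.toMul x : Qbˣ) : Qb)) (by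
          rw [← Units.val_pow_eq_pow_val, ← toMul_nsmul, hx]; rfl)
      refine ⟨(i : ZMod p), Additive.toMul.injective (Units.ext ?_)⟩
      rw [hι, toMul_nsmul, toMul_ofMul, ZMod.val_natCast, Units.val_pow_eq_pow_val, ← hi,
        pow_eq_pow_mod i hζ.pow_eq_one]
      rfl
    divisible := fun x => by
      obtain ⟨y, hy⟩ := IsAlgClosed.exists_pow_nat_eq ((Additive.toMul x : Qbˣ) : Qb)
        (Fact.out : p.Prime).pos
      have hy0 : y ≠ 0 := fun h => (Additive.toMul x).ne_zero (by
        rw [← hy, h, zero_pow (Fact.out : p.Prime).ne_zero])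
      exact ⟨Additive.ofMul (Units.mk0 y hy0), Additive.toMul.injective (Units.ext (by
        rw [toMul_nsmul, toMul_ofMul, Units.val_pow_eq_pow_val, Units.val_mk0, hy]))⟩
    smooth := fun x => by
      haveI : Algebra.IsAlgebraic ℚ Qb := AlgebraicClosure.isAlgebraic ℚ
      refine ⟨IntermediateField.adjoin ℚ {((Additive.toMul x : Qbˣ) : Qb)},
        IntermediateField.adjoin.finiteDimensional (Algebra.IsAlgebraic.isAlgebraic _).isIntegral,
        fun g hg => Additive.toMul.injective (Units.ext ?_)⟩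
      rw [unitsAct_apply]
      exact (IntermediateField.mem_fixingSubgroup_iff _ _).mp hg _
        (IntermediateField.mem_adjoin_simple_self ℚ _)
    h90 := fun U _ c hc ⟨F, hF, hlev⟩ => by
      obtain ⟨y, hy, hyc⟩ := hilbert90_qbar (r := r.comp U.subtype)
        (u := fun v : U => ((Additive.toMul (c v) : Qbˣ) : Qb))
        (fun v => Units.ne_zero _)
        (fun v w => by
          show ((Additive.toMul (c (v * w)) : Qbˣ) : Qb) = _
          rw [hc, toMul_add, Units.val_mul, mul_comm]
          rfl)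
        ⟨F, hF, fun v s hs => by
          show ((Additive.toMul (c (v * s)) : Qbˣ) : Qb) = _
          rw [hlev v s hs]⟩
      refine ⟨Additive.ofMul (Units.mk0 y hy), fun v => eq_sub_of_add_eq ?_⟩
      refine Additive.toMul.injective (Units.ext ?_)
      rw [toMul_add, Units.val_mul, unitsAct_apply, toMul_ofMul, Units.val_mk0]
      exact (hyc v).symm }

end FLTAgent.PT

end
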